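import Mathlib

/-!
# The modular curve X₀(15), explicitly

Plane model `F15 s t = 0` (`j₅(s) = j₃(t)`), and the birational map to
`E0 : y² = x (x - 16) (x + 9)` (Cremona 15a1), with explicit certificates.
-/

namespace Fermat.Agent.S51

/-- plane model of X₀(15): `j₅(s) = j₃(t)` cleared of denominators. -/
def F15 (s t : ℚ) : ℚ := s * (t + 27) * (t + 3) ^ 3 - t * (s ^ 2 + 10 * s + 5) ^ 3

def M15 (s t : ℚ) : ℚ :=
  250 * t + 15 * t ^ 2 - 1458 * s + 7 * s * t - 4 * s * t ^ 2 - 621 * s ^ 2 + 24 * s ^ 2 * t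
    - 54 * s ^ 3 + s ^ 3 * t

def N15 (s t : ℚ) : ℚ :=
  36 * (-15 + 27 * s + 17 * s * t + s * t ^ 2 + 39 * s ^ 2 + 4 * s ^ 2 * t + 6 * s ^ 3
    + s ^ 3 * t)

/-- relation between the Hauptmodul `s` of X₀(5) and the coordinate `x` on `E0`. -/
def G15 (s x : ℚ) : ℚ :=
  s ^ 2 * (x - 36) ^ 3 * (x + 4) - 500 * s * x ^ 2 * (13 * x - 108) - 62500 * x ^ 3

def Q15 (s t : ℚ) : ℚ :=
  (-19683000000000) + (-1180980000000)*t^1 + (95857784640000)*s^1 + (23046431040000)*s^1*t^1 + (-1212472800000)*s^1*t^2 + (-289733760000)*s^1*t^3 + (-9447840000)*s^1*t^4 + (62815538880000)*s^2 + (6304858560000)*s^2*t^1 + (-8708808960000)*s^2*t^2 + (-885414240000)*s^2*t^3 + (-21695040000)*s^2*t^4 + (-548828174880000)*s^3 + (-84400704000000)*s^3*t^1 + (-11236631040000)*s^3*t^2 + (-477990720000)*s^3*t^3 + (-1283040000)*s^3*t^4 + (-507525367680000)*s^4 + (-44515072800000)*s^4*t^1 + (-3804330240000)*s^4*t^2 + (-69284160000)*s^4*t^3 + (1632960000)*s^4*t^4 + (-213294435840000)*s^5 + (-10487102400000)*s^5*t^1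 + (-792568800000)*s^5*t^2 + (4665600000)*s^5*t^3 + (116640000)*s^5*t^4 + (-53966062080000)*s^6 + (-1020366720000)*s^6*t^1 + (-109175040000)*s^6*t^2 + (2916000000)*s^6*t^3 + (-7507883520000)*s^7 + (25194240000)*s^7*t^1 + (-4199040000)*s^7*t^2 + (233280000)*s^7*t^3 + (-403107840000)*s^8

theorem x015_key (s t : ℚ) :
    s ^ 2 * (N15 s t - 36 * M15 s t) ^ 3 * (N15 s t + 4 * M15 s t)
      - 500 * s * (N15 s t) ^ 2 * M15 s t * (13 * N15 s t - 108 * M15 s t)
      - 62500 * (N15 s t) ^ 3 * M15 s t = Q15 s t * F15 s t := by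
  unfold N15 M15 Q15 F15
  ring


def U15 (s t : ℚ) : ℚ :=
  (225 * s - 380 * s ^ 2 - 2170 * s ^ 3 - 1035 * s ^ 4 - 230 * s ^ 5 - 45 * s ^ 6 - 5 * s ^ 7)
    + (5 * s ^ 2 - 15 * s ^ 3 - 25 * s ^ 4 - 5 * s ^ 5) * t

def V15 (s t : ℚ) : ℚ :=
  (-3375 + 6625 * s + 30880 * s ^ 2 + 6820 * s ^ 3 + 10 * s ^ 4 + 530 * s ^ 5 + 145 * s ^ 6
      + 5 * s ^ 7)
    + (-75 * s + 245 * s ^ 2 + 315 * s ^ 3 - 25 * s ^ 4 - 20 * s ^ 5) * t

theorem x015_res (s t : ℚ) :
    U15 s t * M15 s t + V15 s t * (N15 s t / 36)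
      = 75 * (s ^ 2 + 4 * s - 1) ^ 2 * (s ^ 2 + 10 * s + 5) * (2 * s ^ 3 + 7 * s ^ 2 + 32 * s + 135)
          * (2 * s + 1) := by
  unfold U15 V15 M15 N15
  ring

lemma no_sq_five (q : ℚ) : q ^ 2 ≠ 5 := by
  intro h
  have h5 : Irrational (Real.sqrt 5) := by
    have := Nat.Prime.irrational_sqrt (p := 5) (by norm_num)
    simpa using this
  have h2 : Real.sqrt 5 = ((|q| : ℚ) : ℝ) := by
    have : (5 : ℝ) = ((|q| : ℚ) : ℝ) ^ 2 := by
      have : ((q ^ 2 : ℚ) : ℝ) = 5 := by exact_mod_cast h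
      push_cast at this ⊢
      rw [sq_abs]; linarith
    rw [this, Real.sqrt_sq]; exact_mod_cast abs_nonneg q
  exact h5.ne_rat _ h2

lemma cubic_no_root (u : ℚ) : u ^ 3 + 7 * u ^ 2 + 64 * u + 540 ≠ 0 := by
  intro h
  let p : Polynomial ℤ := Polynomial.X ^ 3 + Polynomial.C 7 * Polynomial.X ^ 2
    + Polynomial.C 64 * Polynomial.X + Polynomial.C 540
  have hp : p.Monic := by
    unfold p; monicity!
  have hr : Polynomial.aeval u p = 0 := by
    simp only [p, map_add, map_mul, map_pow, Polynomial.aeval_X, map_ofNat]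
    linarith
  obtain ⟨n, hn⟩ := isInteger_of_is_root_of_monic hp hr
  have hn' : (n : ℚ) = u := by simpa using hn
  rw [← hn'] at h
  have h' : n ^ 3 + 7 * n ^ 2 + 64 * n + 540 = 0 := by exact_mod_cast h
  rcases le_or_gt n (-8) with hle | hgt
  · nlinarith [sq_nonneg (n + 8), sq_nonneg n]
  · have : -7 ≤ n := by omega
    nlinarith [sq_nonneg (n + 7), sq_nonneg n]

/-- Rational points of the plane model of X₀(15), given the rational points of `E0` (15a1). -/
theorem s_mem_of_F15
    (hE0 : ∀ x y : ℚ, y ^ 2 = x * (x - 16) * (x + 9) →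
      x = 0 ∨ x = 16 ∨ x = -9 ∨ x = 36 ∨ x = -4)
    (s t : ℚ) (hs : s ≠ 0) (hF : F15 s t = 0) :
    s = -40 ∨ s = -10 ∨ s = -25 / 2 ∨ s = -25 / 8 := by
  have key := x015_key s t
  rw [hF, mul_zero] at key
  by_cases hM : M15 s t = 0
  · exfalso
    rw [hM] at key
    have hN : N15 s t = 0 := by
      have h1 : s ^ 2 * (N15 s t) ^ 4 = 0 := by linear_combination key
      rcases mul_eq_zero.mp h1 with h | h
      · exact absurd ((pow_eq_zero_iff (two_ne_zero)).mp h) hs
      · exact (pow_eq_zero_iff (by norm_num)).mp h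
    have hR := x015_res s t
    rw [hM, hN] at hR
    simp only [mul_zero, zero_div, add_zero] at hR
    have hR' : (s ^ 2 + 4 * s - 1) ^ 2 * (s ^ 2 + 10 * s + 5)
        * (2 * s ^ 3 + 7 * s ^ 2 + 32 * s + 135) * (2 * s + 1) = 0 := by linarith
    rcases mul_eq_zero.mp hR' with h | h
    · rcases mul_eq_zero.mp h with h | h
      · rcases mul_eq_zero.mp h with h | h
        · have h0 : s ^ 2 + 4 * s - 1 = 0 := (pow_eq_zero_iff (two_ne_zero)).mp h
          exact no_sq_five (s + 2) (by linear_combination h0)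
        · exact no_sq_five ((s + 5) / 2) (by linear_combination h / 4)
      · exact cubic_no_root (2 * s) (by linear_combination 4 * h)
    · have hs' : s = -1 / 2 := by linarith
      subst hs'
      have ht : t = -12 := by
        unfold M15 at hM; unfold N15 at hN; linarith
      subst ht
      unfold F15 at hF; norm_num at hF
  · set x := N15 s t / M15 s t with hx
    have hG : G15 s x = 0 := by
      have h1 : G15 s x * (M15 s t) ^ 4 = 0 := by
        rw [hx]; unfold G15; field_simp; linear_combination key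
      exact (mul_eq_zero.mp h1).resolve_right (pow_ne_zero _ hM)
    by_cases hB : x * (x + 36) = 0
    · exfalso
      rcases mul_eq_zero.mp hB with h0 | h36
      · rw [h0] at hG; unfold G15 at hG
        apply hs
        have : s ^ 2 = 0 := by linarith
        exact (pow_eq_zero_iff (two_ne_zero)).mp this
      · have hx36 : x = -36 := by linarith
        rw [hx36] at hG; unfold G15 at hG
        have h2 : (s + 125 / 8) ^ 2 = 0 := by linarith
        have hs' : s = -125 / 8 := by
          have := (pow_eq_zero_iff (two_ne_zero)).mp h2; linarith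
        have hNM : N15 s t + 36 * M15 s t = 0 := by
          have : N15 s t = x * M15 s t := by rw [hx]; field_simp
          rw [this, hx36]; ring
        subst hs'
        unfold N15 M15 at hNM
        nlinarith [sq_nonneg (t - 475 / 64)]
    · have hB1 : x ≠ 0 := fun h => hB (by rw [h]; ring)
      have hB2 : x + 36 ≠ 0 := fun h => hB (by rw [h]; ring)
      set y := (s * (x - 36) ^ 3 * (x + 4) - 250 * x ^ 2 * (13 * x - 108)) / (250 * x * (x + 36))
        with hy
      have hyE : y ^ 2 = x * (x - 16) * (x + 9) := by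
        rw [hy]; unfold G15 at hG; field_simp
        linear_combination ((x - 36) ^ 3 * (x + 4)) * hG
      rcases hE0 x y hyE with h | h | h | h | h
      · exact absurd h hB1
      · left; rw [h] at hG; unfold G15 at hG
        have h2 : (s + 40) ^ 2 = 0 := by linarith
        have := (pow_eq_zero_iff (two_ne_zero)).mp h2; linarith
      · right; left; rw [h] at hG; unfold G15 at hG
        have h2 : (s + 10) ^ 2 = 0 := by linarith
        have := (pow_eq_zero_iff (two_ne_zero)).mp h2; linarith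
      · right; right; left; rw [h] at hG; unfold G15 at hG; linarith
      · right; right; right; rw [h] at hG; unfold G15 at hG; linarith

end Fermat.Agent.S51
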