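import Mathlib
import Fermat.Agent.S51.X015

/-!
# j-parametrisations of X₀(3) and X₀(5), and the algebraic core of S51
-/

namespace Fermat.Agent.S51

variable (E : WeierstrassCurve ℚ)

/-- `b`-invariants of the curve translated by `x ↦ x + r`. -/
def tb2 (r : ℚ) : ℚ := E.b₂ + 12 * r
def tb4 (r : ℚ) : ℚ := E.b₄ + r * E.b₂ + 6 * r ^ 2
def tb6 (r : ℚ) : ℚ := E.b₆ + 2 * r * E.b₄ + r ^ 2 * E.b₂ + 4 * r ^ 3
def tb8 (r : ℚ) : ℚ := E.b₈ + 3 * r * E.b₆ + 3 * r ^ 2 * E.b₄ + r ^ 3 * E.b₂ + 3 * r ^ 4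

/-- existence of a rational root of the 3-division polynomial. -/
def Cond3 : Prop := ∃ x0 : ℚ, tb8 E x0 = 0

/-- existence of a rational subgroup of order 5, in coordinates. -/
def Cond5 : Prop := ∃ r d : ℚ, tb6 E r = tb2 E r * d ∧ tb8 E r = 5 * d ^ 2 + tb4 E r * d

lemma tb_relation (r : ℚ) : 4 * tb8 E r = tb2 E r * tb6 E r - tb4 E r ^ 2 := by
  unfold tb2 tb4 tb6 tb8
  linear_combination E.b_relation

lemma c4_eq_tb (r : ℚ) : E.c₄ = tb2 E r ^ 2 - 24 * tb4 E r := by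
  unfold tb2 tb4 WeierstrassCurve.c₄
  ring

lemma Δ_eq_tb (r : ℚ) :
    E.Δ = -tb2 E r ^ 2 * tb8 E r - 8 * tb4 E r ^ 3 - 27 * tb6 E r ^ 2
      + 9 * tb2 E r * tb4 E r * tb6 E r := by
  unfold tb2 tb4 tb6 tb8 WeierstrassCurve.Δ
  linear_combination (36 * r ^ 2 + 6 * E.b₂ * r) * E.b_relation

theorem j3_of_cond3 (hΔ : E.Δ ≠ 0) (h : Cond3 E) :
    ∃ t : ℚ, t ≠ 0 ∧ E.c₄ ^ 3 * t = E.Δ * ((t + 27) * (t + 3) ^ 3) := by
  obtain ⟨r, h8⟩ := h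
  have hrel := tb_relation E r
  have hc4 := c4_eq_tb E r
  have hD := Δ_eq_tb E r
  set B2 := tb2 E r
  set B4 := tb4 E r
  set B6 := tb6 E r
  set B8 := tb8 E r
  rw [h8] at hrel hD
  have hB6 : B6 ≠ 0 := by
    intro h6
    rw [h6] at hrel hD
    have hB4 : B4 = 0 := by
      have : B4 ^ 2 = 0 := by linarith
      exact (pow_eq_zero_iff (two_ne_zero)).mp this
    apply hΔ; rw [hD, hB4]; ring
  have hB2 : B2 = B4 ^ 2 / B6 := by field_simp; linarith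
  refine ⟨E.Δ / B6 ^ 2, div_ne_zero hΔ (pow_ne_zero _ hB6), ?_⟩
  rw [hc4, hD, hB2]
  field_simp
  ring

theorem j5_of_cond5 (hΔ : E.Δ ≠ 0) (h : Cond5 E) :
    ∃ s : ℚ, s ≠ 0 ∧ E.c₄ ^ 3 * s = E.Δ * (s ^ 2 + 10 * s + 5) ^ 3 := by
  obtain ⟨r, d, h6, h8⟩ := h
  have hrel := tb_relation E r
  have hc4 := c4_eq_tb E r
  have hD := Δ_eq_tb E r
  set B2 := tb2 E r
  set B4 := tb4 E r
  set B6 := tb6 E r
  set B8 := tb8 E r
  rw [h6, h8] at hrel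
  rw [h6, h8] at hD
  have hd : d ≠ 0 := by
    intro hd
    rw [hd] at hrel hD
    have hB4 : B4 = 0 := by
      have : B4 ^ 2 = 0 := by linarith
      exact (pow_eq_zero_iff (two_ne_zero)).mp this
    apply hΔ; rw [hD, hB4]; ring
  -- `Z = B2 ^ 2`
  have hZ : B2 ^ 2 = (B4 ^ 2 + 4 * B4 * d + 20 * d ^ 2) / d := by
    field_simp; linarith
  have hD' : E.Δ = B2 ^ 2 * (8 * B4 * d - 32 * d ^ 2) - 8 * B4 ^ 3 := by
    rw [hD]; ring
  have hD'' : E.Δ = 32 * d ^ 2 * (B4 - 20 * d) := by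
    rw [hD', hZ]; field_simp; ring
  have hs : B4 - 20 * d ≠ 0 := by
    intro h0; apply hΔ; rw [hD'', h0]; ring
  refine ⟨(B4 - 20 * d) / (2 * d), div_ne_zero hs (mul_ne_zero two_ne_zero hd), ?_⟩
  rw [hD'', hc4, hZ]
  field_simp
  ring

end Fermat.Agent.S51
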