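import Mathlib
import Fermat.Agent.S51.Param
import Fermat.Prelude.Def_FLTPrelim_Modularity

/-!
# Algebraic core of S51: rational 3- and 5-isogeny data contradict semistability
-/

namespace Fermat.Agent.S51

lemma five_dvd_of_eq {c D a b : ℤ} (h : a * c ^ 3 = b * D) (ha : IsCoprime (5 : ℤ) a)
    (hb5 : (5 : ℤ) ∣ b) (hb125 : ¬ (125 : ℤ) ∣ b) : (5 : ℤ) ∣ c ∧ (5 : ℤ) ∣ D := by
  have hp : Prime (5 : ℤ) := by
    rw [Int.prime_iff_natAbs_prime]; norm_num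
  have h1 : (5 : ℤ) ∣ a * c ^ 3 := by rw [h]; exact Dvd.dvd.mul_right hb5 D
  have h2 : (5 : ℤ) ∣ c ^ 3 := ha.dvd_of_dvd_mul_left h1
  have h3 : (5 : ℤ) ∣ c := hp.dvd_of_dvd_pow h2
  refine ⟨h3, ?_⟩
  by_contra hD
  have hcop : IsCoprime (5 : ℤ) D := by
    rw [Prime.coprime_iff_not_dvd hp]; exact hD
  have hcop' : IsCoprime ((5 : ℤ) ^ 3) D := hcop.pow_left
  obtain ⟨k, rfl⟩ := h3
  have h4 : (5 : ℤ) ^ 3 ∣ b * D := by
    rw [← h]; exact ⟨a * k ^ 3, by ring⟩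
  have h5 : (5 : ℤ) ^ 3 ∣ b := hcop'.dvd_of_dvd_mul_right h4
  exact hb125 (by norm_num at h5; exact h5)

theorem core (W : WeierstrassCurve ℤ) (hΔ : W.Δ ≠ 0) (hW : W.IsSemistableModel)
    (hE0 : ∀ x y : ℚ, y ^ 2 = x * (x - 16) * (x + 9) →
      x = 0 ∨ x = 16 ∨ x = -9 ∨ x = 36 ∨ x = -4)
    (h3 : Cond3 (W.map (Int.castRingHom ℚ))) (h5 : Cond5 (W.map (Int.castRingHom ℚ))) :
    False := by
  set E := W.map (Int.castRingHom ℚ) with hE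
  have hEΔ : E.Δ = (W.Δ : ℚ) := by rw [hE, WeierstrassCurve.map_Δ]; rfl
  have hEc : E.c₄ = (W.c₄ : ℚ) := by rw [hE, WeierstrassCurve.map_c₄]; rfl
  have hΔ' : E.Δ ≠ 0 := by rw [hEΔ]; exact_mod_cast hΔ
  obtain ⟨t, ht, h3'⟩ := j3_of_cond3 E hΔ' h3
  obtain ⟨s, hs, h5'⟩ := j5_of_cond5 E hΔ' h5
  have hF : F15 s t = 0 := by
    have : E.Δ * F15 s t = 0 := by
      unfold F15; linear_combination (-s) * h3' + t * h5'
    exact (mul_eq_zero.mp this).resolve_left hΔ'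
  have hss := hW 5 Nat.prime_five
  have hss' : (5 : ℤ) ∣ W.Δ → ¬ (5 : ℤ) ∣ W.c₄ := by exact_mod_cast hss
  rw [hEΔ, hEc] at h5'
  have hcop : ∀ a : ℤ, ¬ (5 : ℤ) ∣ a → IsCoprime (5 : ℤ) a := fun a ha => by
    have hp : Prime (5 : ℤ) := by
      rw [Int.prime_iff_natAbs_prime]; norm_num
    rw [Prime.coprime_iff_not_dvd hp]; exact ha
  rcases s_mem_of_F15 hE0 s t hs hF with rfl | rfl | rfl | rfl
  · have h : (-8 : ℤ) * W.c₄ ^ 3 = (25 * 241 ^ 3) * W.Δ := by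
      have : (-8 : ℚ) * (W.c₄ : ℚ) ^ 3 = (25 * 241 ^ 3) * (W.Δ : ℚ) := by
        norm_num at h5' ⊢; linarith
      exact_mod_cast this
    obtain ⟨hc, hD⟩ := five_dvd_of_eq h (hcop _ (by norm_num)) (by norm_num) (by norm_num)
    exact hss' hD hc
  · have h : (-2 : ℤ) * W.c₄ ^ 3 = 25 * W.Δ := by
      have : (-2 : ℚ) * (W.c₄ : ℚ) ^ 3 = 25 * (W.Δ : ℚ) := by
        norm_num at h5' ⊢; linarith
      exact_mod_cast this
    obtain ⟨hc, hD⟩ := five_dvd_of_eq h (hcop _ (by norm_num)) (by norm_num) (by norm_num)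
    exact hss' hD hc
  · have h : (-32 : ℤ) * W.c₄ ^ 3 = 121945 * W.Δ := by
      have : (-32 : ℚ) * (W.c₄ : ℚ) ^ 3 = 121945 * (W.Δ : ℚ) := by
        norm_num at h5' ⊢; linarith
      exact_mod_cast this
    obtain ⟨hc, hD⟩ := five_dvd_of_eq h (hcop _ (by norm_num)) (by norm_num) (by norm_num)
    exact hss' hD hc
  · have h : (32768 : ℤ) * W.c₄ ^ 3 = 46969655 * W.Δ := by
      have : (32768 : ℚ) * (W.c₄ : ℚ) ^ 3 = 46969655 * (W.Δ : ℚ) := by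
        norm_num at h5' ⊢; linarith
      exact_mod_cast this
    obtain ⟨hc, hD⟩ := five_dvd_of_eq h (hcop _ (by norm_num)) (by norm_num) (by norm_num)
    exact hss' hD hc

end Fermat.Agent.S51
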