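import Mathlib

/-!
# S51: 2-descent on the curve `Y^2 = X (X - 1) (X - 81)` (15a2)

If `m / n` (lowest terms) is the `X`-coordinate of a rational point with `Y ≠ 0`, then
`n = E^2`, `m = A^2`, `m - n = d B^2`, `m - 81 n = d C^2` with `d ∈ {1, -1, 5, -5}`.
-/

set_option autoImplicit false

namespace Fermat.Agent.S51

/-- a positive integer coprime to its cofactor in a square is a square -/
theorem sq_of_coprime_mul_pos {x y w : ℤ} (hc : IsCoprime x y) (hx : 0 < x)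
    (h : x * y = w ^ 2) : ∃ a : ℤ, x = a ^ 2 := by
  obtain ⟨a, ha | ha⟩ := Int.sq_of_isCoprime hc h
  · exact ⟨a, ha⟩
  · exfalso
    have : 0 ≤ a ^ 2 := sq_nonneg a
    omega

theorem dvd_of_sq_dvd_sq {a b : ℤ} (h : a ^ 2 ∣ b ^ 2) : a ∣ b :=
  (Int.pow_dvd_pow_iff (two_ne_zero)).1 h

/-- cancel a square factor from a square -/
theorem exists_sq_of_sq_mul {a y w : ℤ} (ha : a ≠ 0) (h : a ^ 2 * y = w ^ 2) :
    ∃ w' : ℤ, y = w' ^ 2 ∧ w = a * w' := by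
  have hd : a ^ 2 ∣ w ^ 2 := ⟨y, h.symm⟩
  obtain ⟨w', rfl⟩ := dvd_of_sq_dvd_sq hd
  refine ⟨w', ?_, rfl⟩
  have h2 : a ^ 2 * y = a ^ 2 * w' ^ 2 := by rw [h]; ring
  exact mul_left_cancel₀ (pow_ne_zero 2 ha) h2

/-- squares are not `≡ 2 mod 3` -/
theorem sq_ne_neg_sq_mul_sq_mod_three (x y z : ZMod 3) (hy : y ≠ 0) (hz : z ≠ 0) :
    x ^ 2 ≠ -(y ^ 2 * z ^ 2) := by
  revert x y z
  decide

theorem int_cast_zmod3_ne_zero {x : ℤ} (h : ¬ (3 : ℤ) ∣ x) : (x : ZMod 3) ≠ 0 := by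
  intro h0
  apply h
  exact (ZMod.intCast_zmod_eq_zero_iff_dvd x 3).1 h0


theorem cop_sub {x y : ℤ} (h : IsCoprime x y) (k : ℤ) : IsCoprime x (y - k * x) := by
  have := h.add_mul_left_right (-k)
  rwa [show y + x * -k = y - k * x by ring] at this

theorem cop_sub' {x y : ℤ} (h : IsCoprime x y) (k : ℤ) : IsCoprime x (k * x - y) := by
  have := h.neg_right.add_mul_left_right k
  rwa [show -y + x * k = k * x - y by ring] at this

theorem mod_three_obstruction (w m e α β : ZMod 3) (hα : α = 0) (hβ : β = 0) (hm : m ≠ 0)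
    (he : e ≠ 0) : w ^ 2 ≠ m * (α * m - e ^ 2) * (m - β * e ^ 2) := by
  subst hα hβ
  revert w m e
  decide

theorem three_adic_cases (m : ℤ) (h3 : (3 : ℤ) ∣ m) (h81 : ¬ (81 : ℤ) ∣ m) :
    ∃ m₀ : ℤ, ¬ (3 : ℤ) ∣ m₀ ∧ (m = 3 * m₀ ∨ m = 9 * m₀ ∨ m = 27 * m₀) := by
  obtain ⟨m₁, rfl⟩ := h3
  by_cases h : (3 : ℤ) ∣ m₁
  · obtain ⟨m₂, rfl⟩ := h
    by_cases h' : (3 : ℤ) ∣ m₂
    · obtain ⟨m₃, rfl⟩ := h'
      refine ⟨m₃, ?_, Or.inr (Or.inr (by ring))⟩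
      intro h''
      obtain ⟨m₄, rfl⟩ := h''
      exact h81 ⟨m₄, by ring⟩
    · exact ⟨m₂, h', Or.inr (Or.inl (by ring))⟩
  · exact ⟨m₁, h, Or.inl rfl⟩

/-- First half of the 2-descent: `n` and `m` are squares. -/
theorem descent_squares (m n w : ℤ) (hn : 0 < n) (hmn : IsCoprime m n) (hw : w ≠ 0)
    (h : w ^ 2 = m * n * (m - n) * (m - 81 * n)) :
    ∃ A E w' : ℤ, n = E ^ 2 ∧ m = A ^ 2 ∧ w' ≠ 0 ∧ w' ^ 2 = (m - n) * (m - 81 * n) := by
  -- `n` is a square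
  have c1 : IsCoprime n m := hmn.symm
  have c2 : IsCoprime n (m - n) := by
    have := cop_sub c1 1
    rwa [one_mul] at this
  have c3 : IsCoprime n (m - 81 * n) := cop_sub c1 81
  have c4 : IsCoprime n (m * (m - n) * (m - 81 * n)) := (c1.mul_right c2).mul_right c3
  obtain ⟨E, hE⟩ := sq_of_coprime_mul_pos c4 hn (w := w) (by rw [h]; ring)
  have hE0 : E ≠ 0 := by
    rintro rfl
    simp at hE
    omega
  obtain ⟨w₁, hw₁, hww₁⟩ := exists_sq_of_sq_mul hE0 (y := m * (m - n) * (m - 81 * n)) (w := w)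
    (by rw [← hE, h]; ring)
  have hw₁0 : w₁ ≠ 0 := by
    rintro rfl
    simp at hww₁
    exact hw hww₁
  -- `m > 0`
  have hpos : 0 < m * (m - n) * (m - 81 * n) := by
    rw [hw₁]; positivity
  have hm : 0 < m := by
    by_contra hm'
    push Not at hm'
    have h1 : m - n < 0 := by linarith
    have h2 : m - 81 * n < 0 := by linarith
    have h3 : 0 ≤ (m - n) * (m - 81 * n) := (mul_pos_of_neg_of_neg h1 h2).le
    have h4 : m * (m - n) * (m - 81 * n) ≤ 0 := by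
      rw [mul_assoc]
      exact mul_nonpos_of_nonpos_of_nonneg hm' h3
    linarith
  -- coprimality of `m` with the other factors away from `3`
  have d1 : IsCoprime m (m - n) := by
    have := cop_sub' hmn 1
    rwa [one_mul] at this
  by_cases h3 : (3 : ℤ) ∣ m
  · have h3n : ¬ (3 : ℤ) ∣ n := by
      intro h3n
      have hu := hmn.isUnit_of_dvd' h3 h3n
      rw [Int.isUnit_iff] at hu
      omega
    have h3E : ¬ (3 : ℤ) ∣ E := by
      intro h3E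
      apply h3n
      rw [hE]
      exact Dvd.dvd.pow h3E two_ne_zero
    by_cases h81 : (81 : ℤ) ∣ m
    · -- `m = 81 m₁`
      obtain ⟨m₁, rfl⟩ := h81
      have hm₁ : 0 < m₁ := by omega
      have e1 : IsCoprime m₁ n := IsCoprime.of_mul_left_right hmn
      have e2 : IsCoprime m₁ (81 * m₁ - n) := cop_sub' e1 81
      have e3 : IsCoprime m₁ (m₁ - n) := by
        have := cop_sub' e1 1
        rwa [one_mul] at this
      obtain ⟨w₂, hw₂, hww₂⟩ := exists_sq_of_sq_mul (a := 81) (by norm_num)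
        (y := m₁ * ((81 * m₁ - n) * (m₁ - n))) (w := w₁) (by rw [← hw₁]; ring)
      obtain ⟨A₁, hA₁⟩ := sq_of_coprime_mul_pos (e2.mul_right e3) hm₁ hw₂
      have hA₁0 : A₁ ≠ 0 := by
        rintro rfl
        simp at hA₁
        omega
      obtain ⟨w₃, hw₃, -⟩ := exists_sq_of_sq_mul hA₁0 (y := (81 * m₁ - n) * (m₁ - n)) (w := w₂)
        (by rw [← hA₁, ← hw₂])
      have hw₃0 : w₃ ≠ 0 := by
        rintro rfl
        have h0 : (81 * m₁ - n) * (m₁ - n) = 0 := by rw [hw₃]; ring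
        have : m₁ * ((81 * m₁ - n) * (m₁ - n)) = 0 := by rw [h0]; ring
        rw [hw₂] at this
        have hw₂0 : w₂ = 0 := by simpa using this
        rw [hw₂0] at hww₂
        simp at hww₂
        exact hw₁0 hww₂
      refine ⟨9 * A₁, E, 9 * w₃, hE, by rw [hA₁]; ring, by simpa using hw₃0, ?_⟩
      have : (9 * w₃) ^ 2 = 81 * w₃ ^ 2 := by ring
      rw [this, ← hw₃]; ring
    · -- impossible
      exfalso
      obtain ⟨m₀, hm₀, hcase⟩ := three_adic_cases m h3 h81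
      have hm₀' := int_cast_zmod3_ne_zero hm₀
      have hE' := int_cast_zmod3_ne_zero h3E
      rcases hcase with rfl | rfl | rfl
      · obtain ⟨w₂, hw₂, -⟩ := exists_sq_of_sq_mul (a := 3) (by norm_num)
          (y := m₀ * (3 * m₀ - E ^ 2) * (m₀ - 27 * E ^ 2)) (w := w₁) (by rw [← hw₁, hE]; ring)
        have := congrArg (Int.cast : ℤ → ZMod 3) hw₂
        push_cast at this
        exact mod_three_obstruction (w₂ : ZMod 3) m₀ E 3 27 (by decide) (by decide) hm₀' hE'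
          this.symm
      · obtain ⟨w₂, hw₂, -⟩ := exists_sq_of_sq_mul (a := 9) (by norm_num)
          (y := m₀ * (9 * m₀ - E ^ 2) * (m₀ - 9 * E ^ 2)) (w := w₁) (by rw [← hw₁, hE]; ring)
        have := congrArg (Int.cast : ℤ → ZMod 3) hw₂
        push_cast at this
        exact mod_three_obstruction (w₂ : ZMod 3) m₀ E 9 9 (by decide) (by decide) hm₀' hE'
          this.symm
      · obtain ⟨w₂, hw₂, -⟩ := exists_sq_of_sq_mul (a := 27) (by norm_num)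
          (y := m₀ * (27 * m₀ - E ^ 2) * (m₀ - 3 * E ^ 2)) (w := w₁) (by rw [← hw₁, hE]; ring)
        have := congrArg (Int.cast : ℤ → ZMod 3) hw₂
        push_cast at this
        exact mod_three_obstruction (w₂ : ZMod 3) m₀ E 27 3 (by decide) (by decide) hm₀' hE'
          this.symm
  · -- `3 ∤ m`: `m` is coprime to the other factors
    have h3' : IsCoprime m 3 := by
      have hp : Prime (3 : ℤ) := Int.prime_three
      exact ((hp.coprime_iff_not_dvd).2 h3).symm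
    have d2 : IsCoprime m (81 * n) := by
      have h81 : IsCoprime m 81 := by
        have : (81 : ℤ) = 3 ^ 4 := by norm_num
        rw [this]
        exact h3'.pow_right
      exact h81.mul_right hmn
    have d3 : IsCoprime m (m - 81 * n) := by
      have := cop_sub' d2 1
      rwa [one_mul] at this
    obtain ⟨A, hA⟩ := sq_of_coprime_mul_pos (d1.mul_right d3) hm (w := w₁)
      (by rw [← hw₁]; ring)
    have hA0 : A ≠ 0 := by
      rintro rfl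
      simp at hA
      omega
    obtain ⟨w₂, hw₂, hww₂⟩ := exists_sq_of_sq_mul hA0 (y := (m - n) * (m - 81 * n)) (w := w₁)
      (by rw [← hA, ← hw₁]; ring)
    have hw₂0 : w₂ ≠ 0 := by
      rintro rfl
      simp at hww₂
      exact hw₁0 hww₂
    exact ⟨A, E, w₂, hE, hA, hw₂0, hw₂.symm⟩

set_option maxRecDepth 100000 in
theorem mod8_obs_two (A E B C s : ZMod 8) (hs : s = 1 ∨ s = -1)
    (h1 : A ^ 2 - E ^ 2 = 2 * (s * B ^ 2)) (h2 : A ^ 2 - 81 * E ^ 2 = 2 * (s * C ^ 2)) :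
    (4 * A = 0 ∧ 4 * E = 0) ∨ (4 * B = 0 ∧ 4 * C = 0) := by
  rcases hs with rfl | rfl
  · revert A E B C
    decide
  · revert A E B C
    decide

set_option maxRecDepth 100000 in
theorem mod8_obs_ten (A E B C s : ZMod 8) (hs : s = 1 ∨ s = -1)
    (h1 : A ^ 2 - E ^ 2 = 10 * (s * B ^ 2)) (h2 : A ^ 2 - 81 * E ^ 2 = 10 * (s * C ^ 2)) :
    (4 * A = 0 ∧ 4 * E = 0) ∨ (4 * B = 0 ∧ 4 * C = 0) := by
  rcases hs with rfl | rfl
  · revert A E B C
    decide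
  · revert A E B C
    decide

set_option maxRecDepth 100000 in
theorem mod8_obs_eight (A E B C s : ZMod 8) (hs : s = 1 ∨ s = -1)
    (h1 : A ^ 2 - E ^ 2 = 0) (h2 : 10 * E ^ 2 = s * (B ^ 2 - C ^ 2)) :
    (4 * A = 0 ∧ 4 * E = 0) := by
  rcases hs with rfl | rfl
  · revert A E B C
    decide
  · revert A E B C
    decide

set_option maxRecDepth 100000 in
theorem mod8_obs_forty (A E B C s : ZMod 8) (hs : s = 1 ∨ s = -1)
    (h1 : A ^ 2 - E ^ 2 = 0) (h2 : 2 * E ^ 2 = s * (B ^ 2 - C ^ 2)) :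
    (4 * A = 0 ∧ 4 * E = 0) := by
  rcases hs with rfl | rfl
  · revert A E B C
    decide
  · revert A E B C
    decide

theorem even_of_four_mul_cast_eq_zero {x : ℤ} (h : (4 : ZMod 8) * (x : ZMod 8) = 0) :
    (2 : ℤ) ∣ x := by
  have h' : ((4 * x : ℤ) : ZMod 8) = 0 := by push_cast; exact h
  rw [ZMod.intCast_zmod_eq_zero_iff_dvd] at h'
  omega

theorem not_both_even {A E : ℤ} (hAE : IsCoprime A E) (h1 : (2 : ℤ) ∣ A) (h2 : (2 : ℤ) ∣ E) :
    False := by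
  have hu := hAE.isUnit_of_dvd' h1 h2
  rw [Int.isUnit_iff] at hu
  omega

/-- Second half of the 2-descent. -/
theorem descent_uv (A E w : ℤ) (hAE : IsCoprime A E) (hw : w ≠ 0)
    (h : w ^ 2 = (A ^ 2 - E ^ 2) * (A ^ 2 - 81 * E ^ 2)) :
    ∃ d B C : ℤ, (d = 1 ∨ d = -1 ∨ d = 5 ∨ d = -5) ∧ A ^ 2 - E ^ 2 = d * B ^ 2 ∧
      A ^ 2 - 81 * E ^ 2 = d * C ^ 2 := by
  obtain ⟨U, hU⟩ : ∃ U, U = A ^ 2 - E ^ 2 := ⟨_, rfl⟩
  obtain ⟨V, hV⟩ : ∃ V, V = A ^ 2 - 81 * E ^ 2 := ⟨_, rfl⟩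
  rw [← hU, ← hV] at h ⊢
  have hUV : U * V ≠ 0 := by rw [← h]; exact pow_ne_zero 2 hw
  have hU0 : U ≠ 0 := left_ne_zero_of_mul hUV
  obtain ⟨g, hg⟩ : ∃ g, g = Int.gcd U V := ⟨_, rfl⟩
  have hgpos : 0 < g := by rw [hg]; exact Int.gcd_pos_of_ne_zero_left _ hU0
  have hgU : (g : ℤ) ∣ U := by rw [hg]; exact Int.gcd_dvd_left U V
  have hgV : (g : ℤ) ∣ V := by rw [hg]; exact Int.gcd_dvd_right U V
  have hcop : IsCoprime (g : ℤ) (E ^ 2) := by
    have h1 : IsCoprime (E ^ 2) (A ^ 2) := hAE.symm.pow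
    have h2 : IsCoprime (E ^ 2) U := by
      have := cop_sub h1 1
      rw [one_mul] at this
      rwa [hU]
    exact h2.symm.of_isCoprime_of_dvd_left hgU
  have hg80 : (g : ℤ) ∣ 80 := by
    have h1 : (g : ℤ) ∣ U - V := dvd_sub hgU hgV
    have h2 : U - V = 80 * E ^ 2 := by rw [hU, hV]; ring
    rw [h2] at h1
    exact hcop.dvd_of_dvd_mul_right h1
  have hg80' : g ∣ 80 := by exact_mod_cast hg80
  have hgne : (g : ℤ) ≠ 0 := by exact_mod_cast hgpos.ne'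
  obtain ⟨U₁, hU₁⟩ := hgU
  obtain ⟨V₁, hV₁⟩ := hgV
  have hgcd1 : Int.gcd U₁ V₁ = 1 := by
    have := Int.gcd_div_gcd_div_gcd (i := U) (j := V) (by rw [← hg]; exact hgpos)
    rw [← hg] at this
    rwa [hU₁, hV₁, Int.mul_ediv_cancel_left _ hgne, Int.mul_ediv_cancel_left _ hgne] at this
  -- `g ∣ w`
  obtain ⟨w', hw', hww'⟩ := exists_sq_of_sq_mul hgne (y := U₁ * V₁) (w := w)
    (by rw [h, hU₁, hV₁]; ring)
  have hw'0 : w' ≠ 0 := by
    rintro rfl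
    simp at hww'
    exact hw hww'
  obtain ⟨B₁, hB₁⟩ := Int.sq_of_gcd_eq_one hgcd1 hw'
  obtain ⟨C₁, hC₁⟩ := Int.sq_of_gcd_eq_one (by rwa [Int.gcd_comm]) (show V₁ * U₁ = w' ^ 2 by
    rw [← hw']; ring)
  -- a common sign
  obtain ⟨s, hs, hsU, hsV⟩ : ∃ s : ℤ, (s = 1 ∨ s = -1) ∧ U₁ = s * B₁ ^ 2 ∧ V₁ = s * C₁ ^ 2 := by
    rcases hB₁ with hB | hB <;> rcases hC₁ with hC | hC
    · exact ⟨1, Or.inl rfl, by rw [hB]; ring, by rw [hC]; ring⟩
    · exfalso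
      have : w' ^ 2 + (B₁ * C₁) ^ 2 = 0 := by rw [← hw', hB, hC]; ring
      have h0 : w' ^ 2 = 0 := by nlinarith [sq_nonneg w', sq_nonneg (B₁ * C₁)]
      exact hw'0 (pow_eq_zero_iff (two_ne_zero) |>.1 h0)
    · exfalso
      have : w' ^ 2 + (B₁ * C₁) ^ 2 = 0 := by rw [← hw', hB, hC]; ring
      have h0 : w' ^ 2 = 0 := by nlinarith [sq_nonneg w', sq_nonneg (B₁ * C₁)]
      exact hw'0 (pow_eq_zero_iff (two_ne_zero) |>.1 h0)
    · exact ⟨-1, Or.inr rfl, by rw [hB]; ring, by rw [hC]; ring⟩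
  have hs' : ((s : ℤ) : ZMod 8) = 1 ∨ ((s : ℤ) : ZMod 8) = -1 := by
    rcases hs with rfl | rfl
    · left; simp
    · right; simp
  -- not both of `B₁`, `C₁` even
  have hBC : ¬ ((2 : ℤ) ∣ B₁ ∧ (2 : ℤ) ∣ C₁) := by
    rintro ⟨hb, hc⟩
    have h1 : (2 : ℤ) ∣ U₁ := by rw [hsU]; exact Dvd.dvd.mul_left (Dvd.dvd.pow hb two_ne_zero) _
    have h2 : (2 : ℤ) ∣ V₁ := by rw [hsV]; exact Dvd.dvd.mul_left (Dvd.dvd.pow hc two_ne_zero) _
    have h3 := Int.dvd_coe_gcd h1 h2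
    rw [hgcd1] at h3
    norm_num at h3
  have hmem : g ∈ ({1, 2, 4, 5, 8, 10, 16, 20, 40, 80} : Finset ℕ) := by
    rw [← (by decide : Nat.divisors 80 = {1, 2, 4, 5, 8, 10, 16, 20, 40, 80})]
    exact Nat.mem_divisors.2 ⟨hg80', by norm_num⟩
  simp only [Finset.mem_insert, Finset.mem_singleton] at hmem
  have hUeq : A ^ 2 - E ^ 2 = (g : ℤ) * (s * B₁ ^ 2) := by rw [← hU, hU₁, hsU]
  have hVeq : A ^ 2 - 81 * E ^ 2 = (g : ℤ) * (s * C₁ ^ 2) := by rw [← hV, hV₁, hsV]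
  have hd1 : s = 1 ∨ s = -1 ∨ s = 5 ∨ s = -5 := by
    rcases hs with rfl | rfl
    · exact Or.inl rfl
    · exact Or.inr (Or.inl rfl)
  have hd5 : 5 * s = 1 ∨ 5 * s = -1 ∨ 5 * s = 5 ∨ 5 * s = -5 := by
    rcases hs with rfl | rfl
    · exact Or.inr (Or.inr (Or.inl rfl))
    · exact Or.inr (Or.inr (Or.inr rfl))
  rcases hmem with hgv | hgv | hgv | hgv | hgv | hgv | hgv | hgv | hgv | hgv
  · -- g = 1
    refine ⟨s, B₁, C₁, hd1, ?_, ?_⟩
    · rw [hU₁, hsU, hgv]; push_cast; ring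
    · rw [hV₁, hsV, hgv]; push_cast; ring
  · -- g = 2
    exfalso
    rw [hgv] at hUeq hVeq
    have e1 := congrArg (Int.cast : ℤ → ZMod 8) hUeq
    have e2 := congrArg (Int.cast : ℤ → ZMod 8) hVeq
    push_cast at e1 e2
    rcases mod8_obs_two _ _ _ _ _ hs' e1 e2 with ⟨a1, a2⟩ | ⟨a1, a2⟩
    · exact not_both_even hAE (even_of_four_mul_cast_eq_zero a1) (even_of_four_mul_cast_eq_zero a2)
    · exact hBC ⟨even_of_four_mul_cast_eq_zero a1, even_of_four_mul_cast_eq_zero a2⟩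
  · -- g = 4
    refine ⟨s, 2 * B₁, 2 * C₁, hd1, ?_, ?_⟩
    · rw [hU₁, hsU, hgv]; push_cast; ring
    · rw [hV₁, hsV, hgv]; push_cast; ring
  · -- g = 5
    refine ⟨5 * s, B₁, C₁, hd5, ?_, ?_⟩
    · rw [hU₁, hsU, hgv]; push_cast; ring
    · rw [hV₁, hsV, hgv]; push_cast; ring
  · -- g = 8
    exfalso
    rw [hgv] at hUeq hVeq
    have e3 : 10 * E ^ 2 = s * (B₁ ^ 2 - C₁ ^ 2) := by
      have : (8 : ℤ) * (10 * E ^ 2) = 8 * (s * (B₁ ^ 2 - C₁ ^ 2)) := by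
        push_cast at hUeq hVeq
        linear_combination hUeq - hVeq
      exact mul_left_cancel₀ (by norm_num) this
    have e1 := congrArg (Int.cast : ℤ → ZMod 8) hUeq
    have e2 := congrArg (Int.cast : ℤ → ZMod 8) e3
    push_cast at e1 e2
    have h80 : (8 : ZMod 8) = 0 := by decide
    rw [h80, zero_mul] at e1
    obtain ⟨a1, a2⟩ := mod8_obs_eight _ _ _ _ _ hs' e1 e2
    exact not_both_even hAE (even_of_four_mul_cast_eq_zero a1) (even_of_four_mul_cast_eq_zero a2)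
  · -- g = 10
    exfalso
    rw [hgv] at hUeq hVeq
    have e1 := congrArg (Int.cast : ℤ → ZMod 8) hUeq
    have e2 := congrArg (Int.cast : ℤ → ZMod 8) hVeq
    push_cast at e1 e2
    rcases mod8_obs_ten _ _ _ _ _ hs' e1 e2 with ⟨a1, a2⟩ | ⟨a1, a2⟩
    · exact not_both_even hAE (even_of_four_mul_cast_eq_zero a1) (even_of_four_mul_cast_eq_zero a2)
    · exact hBC ⟨even_of_four_mul_cast_eq_zero a1, even_of_four_mul_cast_eq_zero a2⟩
  · -- g = 16
    refine ⟨s, 4 * B₁, 4 * C₁, hd1, ?_, ?_⟩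
    · rw [hU₁, hsU, hgv]; push_cast; ring
    · rw [hV₁, hsV, hgv]; push_cast; ring
  · -- g = 20
    refine ⟨5 * s, 2 * B₁, 2 * C₁, hd5, ?_, ?_⟩
    · rw [hU₁, hsU, hgv]; push_cast; ring
    · rw [hV₁, hsV, hgv]; push_cast; ring
  · -- g = 40
    exfalso
    rw [hgv] at hUeq hVeq
    have e3 : 2 * E ^ 2 = s * (B₁ ^ 2 - C₁ ^ 2) := by
      have : (40 : ℤ) * (2 * E ^ 2) = 40 * (s * (B₁ ^ 2 - C₁ ^ 2)) := by
        push_cast at hUeq hVeq
        linear_combination hUeq - hVeq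
      exact mul_left_cancel₀ (by norm_num) this
    have e1 := congrArg (Int.cast : ℤ → ZMod 8) hUeq
    have e2 := congrArg (Int.cast : ℤ → ZMod 8) e3
    push_cast at e1 e2
    have h40 : (40 : ZMod 8) = 0 := by decide
    rw [h40, zero_mul] at e1
    obtain ⟨a1, a2⟩ := mod8_obs_forty _ _ _ _ _ hs' e1 e2
    exact not_both_even hAE (even_of_four_mul_cast_eq_zero a1) (even_of_four_mul_cast_eq_zero a2)
  · -- g = 80
    refine ⟨5 * s, 4 * B₁, 4 * C₁, hd5, ?_, ?_⟩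
    · rw [hU₁, hsU, hgv]; push_cast; ring
    · rw [hV₁, hsV, hgv]; push_cast; ring

/-- **2-descent on `Y^2 = X (X - 1) (X - 81)`.** -/
theorem two_descent (m n w : ℤ) (hn : 0 < n) (hmn : IsCoprime m n) (hw : w ≠ 0)
    (h : w ^ 2 = m * n * (m - n) * (m - 81 * n)) :
    ∃ A B C E d : ℤ, (d = 1 ∨ d = -1 ∨ d = 5 ∨ d = -5) ∧ n = E ^ 2 ∧ m = A ^ 2 ∧
      A ^ 2 - E ^ 2 = d * B ^ 2 ∧ A ^ 2 - 81 * E ^ 2 = d * C ^ 2 ∧
      A ≠ 0 ∧ B ≠ 0 ∧ C ≠ 0 ∧ E ≠ 0 := by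
  obtain ⟨A, E, w', hE, hA, hw'0, hw'⟩ := descent_squares m n w hn hmn hw h
  have hAE : IsCoprime A E := by
    rw [hA, hE] at hmn
    exact (IsCoprime.pow_iff (by norm_num) (by norm_num)).1 hmn
  rw [hA, hE] at hw'
  obtain ⟨d, B, C, hd, hB, hC⟩ := descent_uv A E w' hAE hw'0 hw'
  have hprod : (A ^ 2 - E ^ 2) * (A ^ 2 - 81 * E ^ 2) ≠ 0 := by
    rw [← hw']; exact pow_ne_zero 2 hw'0
  refine ⟨A, B, C, E, d, hd, hE, hA, hB, hC, ?_, ?_, ?_, ?_⟩
  · rintro rfl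
    apply hw
    have : w ^ 2 = 0 := by rw [h, hA]; ring
    exact pow_eq_zero_iff (two_ne_zero) |>.1 this
  · rintro rfl
    apply hprod
    rw [hB]; ring
  · rintro rfl
    apply hprod
    rw [hC]; ring
  · rintro rfl
    rw [hE] at hn
    norm_num at hn

end Fermat.Agent.S51
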