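import Mathlib
import Fermat.Agent.S51.E15_Descent2

/-!
# S51: infinite descent on `Y^2 = X (X - 1) (X - 81)` (15a2)

There is no rational `X` such that `X`, `X - 1`, `X - 81` are all nonzero rational squares;
in integers: `a^2 = b^2 + e^2`, `a^2 = c^2 + 81 e^2` forces `e = 0`.
-/

set_option autoImplicit false

namespace Fermat.Agent.S51

/-- The key identity: the halved point. -/
theorem halving_identity (a b c e : ℤ) (h1 : a ^ 2 = b ^ 2 + e ^ 2)
    (h2 : a ^ 2 = c ^ 2 + 81 * e ^ 2) :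
    e ^ 2 * ((a - c) * (a - b) * ((a - c) - (a - b)) * ((a - c) - 81 * (a - b))) =
      ((a - b) * (a - c) * (b - c)) ^ 2 := by
  linear_combination ((-2) * a^4 + 2 * a^3 * c + 2 * a^2 * b^2 + 162 * a^2 * e^2 + (-2) * a * b^2 * c + (-81) * a * b * e^2 + (-81) * a * c * e^2 + (-81) * b^2 * e^2 + 81 * b * c * e^2) * h1 + (2 * a^4 + (-2) * a^3 * c + (-5) * a^2 * b^2 + 2 * a^2 * b * c + 1 * a^2 * c^2 + (-2) * a^2 * e^2 + 2 * a * b^3 + 2 * a * b^2 * c + (-2) * a * b * c^2 + 1 * a * b * e^2 + 1 * a * c * e^2 + 1 * b^4 + (-2) * b^3 * c + 1 * b^2 * c^2 + 1 * b^2 * e^2 + (-1) * b * c * e^2) * h2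


theorem abs_le_sq_int (A : ℤ) : |A| ≤ A ^ 2 := by
  rcases eq_or_ne A 0 with rfl | h
  · simp
  · have h1 : 1 ≤ |A| := Int.one_le_abs h
    have h2 : |A| ^ 2 = A ^ 2 := sq_abs A
    nlinarith

/-- basic inequalities for a primitive solution -/
theorem basic_ineqs (a b c e : ℤ) (ha : 0 ≤ a) (hb : 0 ≤ b) (hc : 0 ≤ c) (he : 0 < e)
    (hcop : IsCoprime a e) (h1 : a ^ 2 = b ^ 2 + e ^ 2) (h2 : a ^ 2 = c ^ 2 + 81 * e ^ 2) :
    1 ≤ c ∧ c < b ∧ b < a ∧ 19 ≤ a ∧ 81 * (a - b) < a ^ 2 ∧ 19 * a ≤ a ^ 2 := by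
  have hc1 : 1 ≤ c := by
    by_contra hc0
    have hc0 : c = 0 := by omega
    subst hc0
    have h9 : a = 9 * e := by
      have h3 : (a - 9 * e) * (a + 9 * e) = 0 := by linear_combination h2
      rcases mul_eq_zero.1 h3 with h | h
      · linarith
      · linarith
    subst h9
    have hu : IsUnit e := hcop.isUnit_of_dvd' (Dvd.intro_left 9 rfl) dvd_rfl
    rw [Int.isUnit_iff] at hu
    have he1 : e = 1 := by omega
    subst he1
    have hb80 : b ^ 2 = 80 := by linarith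
    have hb9 : b ≤ 9 := by nlinarith
    interval_cases b <;> omega
  have hbc : c < b := by
    by_contra h
    have h' : b ≤ c := by omega
    nlinarith
  have hba : b < a := by
    by_contra h
    have h' : a ≤ b := by omega
    nlinarith
  have k1' : (a - b) * (a + b) = e ^ 2 := by linear_combination h1
  have he2 : 2 ≤ e := by
    by_contra h
    have he1 : e = 1 := by omega
    subst he1
    have h3 : 1 ≤ a - b := by omega
    have h4 : 2 ≤ a + b := by omega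
    nlinarith
  have ha9 : 9 * e < a := by
    by_contra h
    have h' : a ≤ 9 * e := by omega
    nlinarith
  have ha19 : 19 ≤ a := by omega
  have k2 : 81 * (a - b) < a ^ 2 := by
    have h3 : 0 ≤ a - b := by omega
    have h4 : 1 ≤ a + b := by omega
    nlinarith
  have k3 : 19 * a ≤ a ^ 2 := by
    have := mul_le_mul_of_nonneg_right ha19 ha
    rw [sq]; exact this
  exact ⟨hc1, hbc, hba, ha19, k2, k3⟩

/-- reduction to lowest terms of the halved point -/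
theorem lowest_terms (m' n' w₀ : ℤ) (hm' : 0 < m') (hn' : 0 < n') (hw₀ : w₀ ≠ 0)
    (h : m' * n' * (m' - n') * (m' - 81 * n') = w₀ ^ 2) :
    ∃ m n w : ℤ, 0 < m ∧ 0 < n ∧ m ≤ m' ∧ n ≤ n' ∧ IsCoprime m n ∧ w ≠ 0 ∧
      w ^ 2 = m * n * (m - n) * (m - 81 * n) := by
  obtain ⟨g, hg⟩ : ∃ g, g = Int.gcd m' n' := ⟨_, rfl⟩
  have hgpos : 0 < g := by rw [hg]; exact Int.gcd_pos_of_ne_zero_left _ hm'.ne'
  have hgne : (g : ℤ) ≠ 0 := by exact_mod_cast hgpos.ne'
  have hg1 : (1 : ℤ) ≤ g := by exact_mod_cast hgpos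
  obtain ⟨m, hm⟩ : (g : ℤ) ∣ m' := by rw [hg]; exact Int.gcd_dvd_left _ _
  obtain ⟨n, hn⟩ : (g : ℤ) ∣ n' := by rw [hg]; exact Int.gcd_dvd_right _ _
  have hmn : IsCoprime m n := by
    rw [Int.isCoprime_iff_gcd_eq_one]
    have := Int.gcd_div_gcd_div_gcd (i := m') (j := n') (by rw [← hg]; exact hgpos)
    rw [← hg] at this
    rwa [hm, hn, Int.mul_ediv_cancel_left _ hgne, Int.mul_ediv_cancel_left _ hgne] at this
  have hmpos : 0 < m := by
    by_contra h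
    have h' : m ≤ 0 := by omega
    have : (g : ℤ) * m ≤ 0 := mul_nonpos_of_nonneg_of_nonpos (by omega) h'
    omega
  have hnpos : 0 < n := by
    by_contra h
    have h' : n ≤ 0 := by omega
    have : (g : ℤ) * n ≤ 0 := mul_nonpos_of_nonneg_of_nonpos (by omega) h'
    omega
  have hmle : m ≤ m' := by rw [hm]; nlinarith
  have hnle : n ≤ n' := by rw [hn]; nlinarith
  obtain ⟨w, hw, hww⟩ := exists_sq_of_sq_mul (a := (g : ℤ) ^ 2) (pow_ne_zero 2 hgne)
    (y := m * n * (m - n) * (m - 81 * n)) (w := w₀) (by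
      rw [← h, hm, hn]; ring)
  have hw0 : w ≠ 0 := by
    rintro rfl
    rw [mul_zero] at hww
    exact hw₀ hww
  exact ⟨m, n, w, hmpos, hnpos, hmle, hnle, hmn, hw0, hw.symm⟩

/-- One step of the descent. -/
theorem descent_step (a b c e : ℤ) (ha : 0 ≤ a) (hb : 0 ≤ b) (hc : 0 ≤ c) (he : 0 < e)
    (hcop : IsCoprime a e) (h1 : a ^ 2 = b ^ 2 + e ^ 2) (h2 : a ^ 2 = c ^ 2 + 81 * e ^ 2) :
    ∃ a' b' c' e' : ℤ, 0 ≤ a' ∧ a' < a ∧ e' ≠ 0 ∧ a' ^ 2 = b' ^ 2 + e' ^ 2 ∧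
      a' ^ 2 = c' ^ 2 + 81 * e' ^ 2 := by
  obtain ⟨hc1, hbc, hba, ha19, k2, k3⟩ := basic_ineqs a b c e ha hb hc he hcop h1 h2
  -- the halved point
  have hW : (a - b) * (a - c) * (b - c) ≠ 0 := by
    have h3 : 0 < a - b := by omega
    have h4 : 0 < a - c := by omega
    have h5 : 0 < b - c := by omega
    positivity
  obtain ⟨w₀, hw₀, hww₀⟩ := exists_sq_of_sq_mul he.ne' (halving_identity a b c e h1 h2)
  have hw₀0 : w₀ ≠ 0 := by
    rintro rfl
    rw [mul_zero] at hww₀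
    exact hW hww₀
  obtain ⟨m, n, w, hmpos, hnpos, hmle, hnle, hmn, hw0, hw⟩ :=
    lowest_terms (a - c) (a - b) w₀ (by omega) (by omega) hw₀0 hw₀
  obtain ⟨A, B, C, E, d, hd, hnE, hmA, hB, hC, hA0, hB0, hC0, hE0⟩ :=
    two_descent m n w hnpos hmn hw0 hw
  have hA2 : A ^ 2 ≤ a - c := by rw [← hmA]; exact hmle
  have hE2 : E ^ 2 ≤ a - b := by rw [← hnE]; exact hnle
  clear hw hw0 hmn hmle hnle hmpos hnpos hmA hnE hww₀ hw₀ hW hw₀0 h1 h2 hcop
  rcases hd with rfl | rfl | rfl | rfl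
  · -- d = 1
    refine ⟨|A|, B, C, E, abs_nonneg A, ?_, hE0, ?_, ?_⟩
    · have := abs_le_sq_int A
      omega
    · rw [sq_abs]; linarith
    · rw [sq_abs]; linarith
  · -- d = -1
    refine ⟨9 * |E|, C, 9 * B, A, by positivity, ?_, hA0, ?_, ?_⟩
    · apply lt_of_pow_lt_pow_left₀ 2 ha
      rw [mul_pow, sq_abs]
      linarith
    · rw [mul_pow, sq_abs]; linarith
    · rw [mul_pow, sq_abs]; linarith
  · -- d = 5
    refine ⟨9 * |B|, 4 * A, 36 * E, C, by positivity, ?_, hC0, ?_, ?_⟩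
    · apply lt_of_pow_lt_pow_left₀ 2 ha
      rw [mul_pow, sq_abs]
      have h3 : 0 < E ^ 2 := by positivity
      linarith
    · rw [mul_pow, sq_abs]; linarith
    · rw [mul_pow, sq_abs]; linarith
  · -- d = -5
    refine ⟨|C|, 4 * E, 4 * A, B, abs_nonneg C, ?_, hB0, ?_, ?_⟩
    · apply lt_of_pow_lt_pow_left₀ 2 ha
      rw [sq_abs]
      have h3 : 0 < A ^ 2 := by positivity
      have h4 : 0 ≤ C ^ 2 := sq_nonneg C
      linarith
    · rw [sq_abs]; linarith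
    · rw [sq_abs]; linarith


theorem no_trivial_class_aux : ∀ (N : ℕ) (a b c e : ℤ), a.natAbs = N →
    a ^ 2 = b ^ 2 + e ^ 2 → a ^ 2 = c ^ 2 + 81 * e ^ 2 → e = 0 := by
  intro N
  induction N using Nat.strong_induction_on with
  | _ N ih =>
    intro a b c e hN h1 h2
    by_contra he
    obtain ⟨g, hg⟩ : ∃ g, g = Int.gcd a e := ⟨_, rfl⟩
    have hgpos : 0 < g := by rw [hg]; exact Int.gcd_pos_of_ne_zero_right _ he
    have hgne : (g : ℤ) ≠ 0 := by exact_mod_cast hgpos.ne'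
    have hg1 : (1 : ℤ) ≤ g := by exact_mod_cast hgpos
    obtain ⟨a₁, ha₁⟩ : (g : ℤ) ∣ a := by rw [hg]; exact Int.gcd_dvd_left _ _
    obtain ⟨e₁, he₁⟩ : (g : ℤ) ∣ e := by rw [hg]; exact Int.gcd_dvd_right _ _
    have hcop : IsCoprime a₁ e₁ := by
      rw [Int.isCoprime_iff_gcd_eq_one]
      have := Int.gcd_div_gcd_div_gcd (i := a) (j := e) (by rw [← hg]; exact hgpos)
      rw [← hg] at this
      rwa [ha₁, he₁, Int.mul_ediv_cancel_left _ hgne, Int.mul_ediv_cancel_left _ hgne] at this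
    obtain ⟨b₁, hb₁⟩ : (g : ℤ) ∣ b := by
      apply dvd_of_sq_dvd_sq
      refine ⟨a₁ ^ 2 - e₁ ^ 2, ?_⟩
      rw [ha₁, he₁] at h1
      linear_combination -h1
    obtain ⟨c₁, hc₁⟩ : (g : ℤ) ∣ c := by
      apply dvd_of_sq_dvd_sq
      refine ⟨a₁ ^ 2 - 81 * e₁ ^ 2, ?_⟩
      rw [ha₁, he₁] at h2
      linear_combination -h2
    have h1' : a₁ ^ 2 = b₁ ^ 2 + e₁ ^ 2 := by
      have : (g : ℤ) ^ 2 * a₁ ^ 2 = (g : ℤ) ^ 2 * (b₁ ^ 2 + e₁ ^ 2) := by
        rw [ha₁, hb₁, he₁] at h1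
        linear_combination h1
      exact mul_left_cancel₀ (pow_ne_zero 2 hgne) this
    have h2' : a₁ ^ 2 = c₁ ^ 2 + 81 * e₁ ^ 2 := by
      have : (g : ℤ) ^ 2 * a₁ ^ 2 = (g : ℤ) ^ 2 * (c₁ ^ 2 + 81 * e₁ ^ 2) := by
        rw [ha₁, hc₁, he₁] at h2
        linear_combination h2
      exact mul_left_cancel₀ (pow_ne_zero 2 hgne) this
    have he₁0 : e₁ ≠ 0 := by
      rintro rfl
      apply he
      rw [he₁]; ring
    obtain ⟨a', b', c', e', ha'0, ha'lt, he'0, h1'', h2''⟩ :=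
      descent_step |a₁| |b₁| |c₁| |e₁| (abs_nonneg _) (abs_nonneg _) (abs_nonneg _)
        (abs_pos.2 he₁0) hcop.abs_abs (by simp only [sq_abs]; exact h1')
        (by simp only [sq_abs]; exact h2')
    have h3 : |a₁| ≤ |a| := by
      rw [ha₁, abs_mul]
      have h4 : (1 : ℤ) ≤ |(g : ℤ)| := by rw [abs_of_nonneg (by omega)]; exact hg1
      nlinarith [abs_nonneg a₁]
    have hlt : a'.natAbs < N := by
      have h5 : a' < |a| := lt_of_lt_of_le ha'lt h3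
      have h6 := Int.natAbs_lt_natAbs_of_nonneg_of_lt ha'0 h5
      rwa [Int.natAbs_abs, hN] at h6
    exact he'0 (ih a'.natAbs hlt a' b' c' e' rfl h1'' h2'')

/-- **No nontrivial point in the trivial class**: if `a^2 - e^2` and `a^2 - 81 e^2` are both
squares then `e = 0`. -/
theorem no_trivial_class (a b c e : ℤ) (h1 : a ^ 2 = b ^ 2 + e ^ 2)
    (h2 : a ^ 2 = c ^ 2 + 81 * e ^ 2) : e = 0 :=
  no_trivial_class_aux a.natAbs a b c e rfl h1 h2

end Fermat.Agent.S51
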