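import Mathlib
import Fermat.Agent.S51.E15_Descent

/-!
# S51: the rational points of `Y^2 = X (X - 1) (X - 81)` (15a2) and of
`y^2 = x (x - 16) (x + 9)` (15a1 = X₀(15))
-/

set_option autoImplicit false

namespace Fermat.Agent.S51

/-- **The curve 15a2 has only its 2-torsion points.** -/
theorem rational_points_15a2 (X Y : ℚ) (h : Y ^ 2 = X * (X - 1) * (X - 81)) : Y = 0 := by
  by_contra hY
  obtain ⟨m, hm⟩ : ∃ m : ℤ, m = X.num := ⟨_, rfl⟩
  obtain ⟨n, hn⟩ : ∃ n : ℤ, n = (X.den : ℤ) := ⟨_, rfl⟩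
  have hnpos : 0 < n := by rw [hn]; exact_mod_cast X.den_pos
  have hnQ : (n : ℚ) ≠ 0 := by exact_mod_cast hnpos.ne'
  have hX : X = (m : ℚ) / (n : ℚ) := by
    rw [hm, hn]
    exact_mod_cast (Rat.num_div_den X).symm
  have hmn : IsCoprime m n := by
    rw [hm, hn]
    exact Rat.isCoprime_num_den X
  -- the integer square
  have hsq : ((m * n * (m - n) * (m - 81 * n) : ℤ) : ℚ) = (Y * (n : ℚ) ^ 2) ^ 2 := by
    push_cast
    rw [mul_pow, h, hX]
    field_simp
  have hsq' : IsSquare (m * n * (m - n) * (m - 81 * n)) := by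
    rw [← Rat.isSquare_intCast_iff, hsq]
    exact ⟨_, sq _⟩
  obtain ⟨w, hw⟩ := hsq'
  have hw0 : w ≠ 0 := by
    rintro rfl
    rw [mul_zero] at hw
    rw [hw] at hsq
    have h0 : (Y * (n : ℚ) ^ 2) ^ 2 = 0 := by rw [← hsq]; simp
    have h1 : Y * (n : ℚ) ^ 2 = 0 := pow_eq_zero_iff (two_ne_zero) |>.1 h0
    rcases mul_eq_zero.1 h1 with h2 | h2
    · exact hY h2
    · exact hnQ (pow_eq_zero_iff (two_ne_zero) |>.1 h2)
  obtain ⟨A, B, C, E, d, hd, hnE, hmA, hB, hC, hA0, hB0, hC0, hE0⟩ :=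
    two_descent m n w hnpos hmn hw0 (by rw [hw]; ring)
  rcases hd with rfl | rfl | rfl | rfl
  · exact hE0 (no_trivial_class A B C E (by linarith) (by linarith))
  · exact hA0 (no_trivial_class (9 * E) C (9 * B) A (by ring_nf; linarith) (by ring_nf; linarith))
  · exact hC0 (no_trivial_class (9 * B) (4 * A) (36 * E) C (by ring_nf; linarith)
      (by ring_nf; linarith))
  · exact hB0 (no_trivial_class C (4 * E) (4 * A) B (by ring_nf; linarith) (by ring_nf; linarith))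

/-- **The rational points of `X₀(15)`**, model `y^2 = x (x - 16) (x + 9)`. -/
theorem rational_points_E15 (x y : ℚ) (h : y ^ 2 = x * (x - 16) * (x + 9)) :
    (x = 0 ∧ y = 0) ∨ (x = 16 ∧ y = 0) ∨ (x = -9 ∧ y = 0) ∨
      (x = -4 ∧ (y = 20 ∨ y = -20)) ∨ (x = 36 ∧ (y = 180 ∨ y = -180)) := by
  by_cases hx16 : x = 16
  · subst hx16
    have : y ^ 2 = 0 := by rw [h]; ring
    have hy : y = 0 := pow_eq_zero_iff (two_ne_zero) |>.1 this
    exact Or.inr (Or.inl ⟨rfl, hy⟩)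
  · have hu : x - 16 ≠ 0 := sub_ne_zero.2 hx16
    -- the 2-isogeny to 15a2
    have hiso := rational_points_15a2 (((x - 16) ^ 2 + 41 * (x - 16) + 400) / (x - 16))
      (y * (400 - (x - 16) ^ 2) / (x - 16) ^ 2) (by
        field_simp
        linear_combination ((400 - (x - 16) ^ 2) ^ 2) * h)
    have hiso' : y * (400 - (x - 16) ^ 2) = 0 := by
      have := div_eq_zero_iff.1 hiso
      rcases this with h1 | h1
      · exact h1
      · exact absurd (pow_eq_zero_iff (two_ne_zero) |>.1 h1) hu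
    rcases mul_eq_zero.1 hiso' with hy | hu2
    · subst hy
      have h0 : x * (x - 16) * (x + 9) = 0 := by rw [← h]; ring
      rcases mul_eq_zero.1 h0 with h1 | h1
      · rcases mul_eq_zero.1 h1 with h2 | h2
        · exact Or.inl ⟨h2, rfl⟩
        · exact absurd h2 hu
      · exact Or.inr (Or.inr (Or.inl ⟨by linarith, rfl⟩))
    · have h1 : (x - 36) * (x + 4) = 0 := by linear_combination -hu2
      rcases mul_eq_zero.1 h1 with h2 | h2
      · have hx : x = 36 := by linarith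
        subst hx
        have h3 : (y - 180) * (y + 180) = 0 := by linear_combination h
        rcases mul_eq_zero.1 h3 with h4 | h4
        · exact Or.inr (Or.inr (Or.inr (Or.inr ⟨rfl, Or.inl (by linarith)⟩)))
        · exact Or.inr (Or.inr (Or.inr (Or.inr ⟨rfl, Or.inr (by linarith)⟩)))
      · have hx : x = -4 := by linarith
        subst hx
        have h3 : (y - 20) * (y + 20) = 0 := by linear_combination h
        rcases mul_eq_zero.1 h3 with h4 | h4
        · exact Or.inr (Or.inr (Or.inr (Or.inl ⟨rfl, Or.inl (by linarith)⟩)))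
        · exact Or.inr (Or.inr (Or.inr (Or.inl ⟨rfl, Or.inr (by linarith)⟩)))

/-- `rational_points_E15` as membership in an explicit finite set. -/
theorem rational_points_E15_set (x y : ℚ) (h : y ^ 2 = x * (x - 16) * (x + 9)) :
    (x, y) ∈ ({(0, 0), (16, 0), (-9, 0), (-4, 20), (-4, -20), (36, 180), (36, -180)} :
      Set (ℚ × ℚ)) := by
  simp only [Set.mem_insert_iff, Set.mem_singleton_iff, Prod.mk.injEq]
  rcases rational_points_E15 x y h with ⟨h1, h2⟩ | ⟨h1, h2⟩ | ⟨h1, h2⟩ | ⟨h1, h2 | h2⟩ |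
    ⟨h1, h2 | h2⟩
  · exact Or.inl ⟨h1, h2⟩
  · exact Or.inr (Or.inl ⟨h1, h2⟩)
  · exact Or.inr (Or.inr (Or.inl ⟨h1, h2⟩))
  · exact Or.inr (Or.inr (Or.inr (Or.inl ⟨h1, h2⟩)))
  · exact Or.inr (Or.inr (Or.inr (Or.inr (Or.inl ⟨h1, h2⟩))))
  · exact Or.inr (Or.inr (Or.inr (Or.inr (Or.inr (Or.inl ⟨h1, h2⟩)))))
  · exact Or.inr (Or.inr (Or.inr (Or.inr (Or.inr (Or.inr ⟨h1, h2⟩)))))

/-- `rational_points_E15`, `x`-coordinates only. -/
theorem rational_points_E15_x (x y : ℚ) (h : y ^ 2 = x * (x - 16) * (x + 9)) :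
    x = 0 ∨ x = 16 ∨ x = -9 ∨ x = 36 ∨ x = -4 := by
  rcases rational_points_E15 x y h with ⟨h1, -⟩ | ⟨h1, -⟩ | ⟨h1, -⟩ | ⟨h1, -⟩ | ⟨h1, -⟩
  · exact Or.inl h1
  · exact Or.inr (Or.inl h1)
  · exact Or.inr (Or.inr (Or.inl h1))
  · exact Or.inr (Or.inr (Or.inr (Or.inr h1)))
  · exact Or.inr (Or.inr (Or.inr (Or.inl h1)))

end Fermat.Agent.S51
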