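import Mathlib

set_option autoImplicit false
set_option linter.unusedSectionVars false

namespace Fermat.Agent.S51

open WeierstrassCurve

variable {F : Type*} [Field F] (W : WeierstrassCurve F)

/-- `ψ₂² = 4x³ + b₂x² + 2b₄x + b₆`. -/
def dF (x : F) : F := 4 * x ^ 3 + W.b₂ * x ^ 2 + 2 * W.b₄ * x + W.b₆

/-- `φ₂ = x⁴ - b₄x² - 2b₆x - b₈`, the numerator of `x(2P)`. -/
def dN (x : F) : F := x ^ 4 - W.b₄ * x ^ 2 - 2 * W.b₆ * x - W.b₈

/-- `ψ₃ = 3x⁴ + b₂x³ + 3b₄x² + 3b₆x + b₈`. -/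
def psi3 (x : F) : F := 3 * x ^ 4 + W.b₂ * x ^ 3 + 3 * W.b₄ * x ^ 2 + 3 * W.b₆ * x + W.b₈

theorem psi3_eq (x : F) : psi3 W x = x * dF W x - dN W x := by
  simp only [psi3, dF, dN]; ring

variable {W}

theorem dF_eq_sq {x y : F} (h : W.toAffine.Equation x y) :
    dF W x = (y - W.toAffine.negY x y) ^ 2 := by
  rw [Affine.equation_iff] at h
  simp only [dF, Affine.negY, b₂, b₄, b₆]
  linear_combination -4 * h

theorem addX_dup_mul [DecidableEq F] {x y : F} (h : W.toAffine.Equation x y)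
    (hy : y ≠ W.toAffine.negY x y) :
    W.toAffine.addX x x (W.toAffine.slope x x y y) * dF W x = dN W x := by
  have hne : y - W.toAffine.negY x y ≠ 0 := sub_ne_zero.mpr hy
  rw [Affine.slope_of_Y_ne rfl hy, dF_eq_sq h, Affine.addX]
  rw [Affine.equation_iff] at h
  field_simp
  simp only [dN, Affine.negY, b₄, b₆, b₈] at *
  linear_combination (-(8 * x) - 4 * W.a₂ - W.a₁^2 ) * h
  

section Points

variable {F : Type*} [Field F] [DecidableEq F] {W : WeierstrassCurve F}

open WeierstrassCurve.Affine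

/-- The `x`-coordinate of a point (junk value `0` at the origin). -/
def xOf : W.toAffine.Point → F
  | .zero => 0
  | .some x _ _ => x

@[simp] theorem xOf_some {x y : F} (h : W.toAffine.Nonsingular x y) :
    xOf (Point.some x y h) = x := rfl

theorem xOf_neg (P : W.toAffine.Point) : xOf (-P) = xOf P := by
  cases P with
  | zero => rfl
  | some x y h => rfl

theorem eq_or_eq_neg_of_xOf_eq {P Q : W.toAffine.Point} (hP : P ≠ 0) (hQ : Q ≠ 0)
    (h : xOf P = xOf Q) : P = Q ∨ P = -Q := by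
  cases P with
  | zero => exact absurd rfl hP
  | some x₁ y₁ h₁ =>
    cases Q with
    | zero => exact absurd rfl hQ
    | some x₂ y₂ h₂ =>
      exact Point.X_eq_iff.mp h

/-- Doubling a point which is `2`-torsion. -/
theorem two_nsmul_eq_zero_iff {x y : F} (h : W.toAffine.Nonsingular x y) :
    (2 : ℕ) • Point.some x y h = 0 ↔ dF W x = 0 := by
  rw [two_nsmul, dF_eq_sq h.1, sq_eq_zero_iff, sub_eq_zero]
  constructor
  · intro h2
    by_contra hy
    rw [Point.add_self_of_Y_ne hy] at h2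
    exact Point.some_ne_zero _ h2
  · intro hy
    exact Point.add_self_of_Y_eq hy

theorem two_nsmul_eq_zero_iff' {P : W.toAffine.Point} (hP : P ≠ 0) :
    (2 : ℕ) • P = 0 ↔ dF W (xOf P) = 0 := by
  cases P with
  | zero => exact absurd rfl hP
  | some x y h => exact two_nsmul_eq_zero_iff h

/-- The duplication formula for the `x`-coordinate. -/
theorem xOf_two_nsmul {P : W.toAffine.Point} (hP : P ≠ 0) (h2 : (2 : ℕ) • P ≠ 0) :
    xOf ((2 : ℕ) • P) * dF W (xOf P) = dN W (xOf P) := by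
  cases P with
  | zero => exact absurd rfl hP
  | some x y h =>
    have hy : y ≠ W.toAffine.negY x y := by
      intro hy
      apply h2
      rw [two_nsmul]
      exact Point.add_self_of_Y_eq hy
    rw [two_nsmul, Point.add_self_of_Y_ne hy]
    exact addX_dup_mul h.1 hy

end Points


section Torsion

variable {F : Type*} [Field F] [DecidableEq F] {W : WeierstrassCurve F}

open WeierstrassCurve.Affine

/-- The `x`-coordinate of a nonzero `3`-torsion point is a root of `ψ₃`. -/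
theorem psi3_xOf_eq_zero {P : W.toAffine.Point} (hP : P ≠ 0) (h3 : (3 : ℕ) • P = 0) :
    psi3 W (xOf P) = 0 := by
  have h2 : (2 : ℕ) • P ≠ 0 := by
    intro h2
    apply hP
    have : (3 : ℕ) • P = (2 : ℕ) • P + P := by rw [succ_nsmul]
    rw [h3, h2, zero_add] at this
    exact this.symm
  have hneg : (2 : ℕ) • P = -P := by
    have : (3 : ℕ) • P = (2 : ℕ) • P + P := by rw [succ_nsmul]
    rw [h3] at this
    exact eq_neg_of_add_eq_zero_left this.symm
  have hx := xOf_two_nsmul hP h2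
  rw [hneg, xOf_neg] at hx
  rw [psi3_eq, hx, sub_self]

/-- A common root of `ψ₃` and `ψ₂²` gives a singular point (in characteristic `≠ 2`). -/
theorem dF_ne_zero_of_psi3 (h2 : (2 : F) ≠ 0) {x y : F} (h : W.toAffine.Nonsingular x y)
    (h3 : psi3 W x = 0) : dF W x ≠ 0 := by
  intro hF
  have hy : y = W.toAffine.negY x y := by
    have := dF_eq_sq h.1
    rw [hF, eq_comm, sq_eq_zero_iff, sub_eq_zero] at this
    exact this
  rw [Affine.nonsingular_iff'] at h
  obtain ⟨heq, hns⟩ := h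
  have hy' : 2 * y + W.a₁ * x + W.a₃ = 0 := by
    simp only [Affine.negY] at hy
    linear_combination hy
  rcases hns with hns | hns
  · apply hns
    -- `(F')² = 2 F F'' - 16 ψ₃ = 0`
    have hsq : (12 * x ^ 2 + 2 * W.b₂ * x + 2 * W.b₄) ^ 2 = 0 := by
      have hb := W.b_relation
      simp only [psi3] at h3
      simp only [dF] at hF
      linear_combination (2 * (24 * x + 2 * W.b₂)) * hF - 16 * h3 + 4 * hb
    have h4 : (12 * x ^ 2 + 2 * W.b₂ * x + 2 * W.b₄) = 0 := by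
      rwa [sq_eq_zero_iff] at hsq
    have h4' : (4 : F) * (W.a₁ * y - (3 * x ^ 2 + 2 * W.a₂ * x + W.a₄)) = 0 := by
      simp only [b₂, b₄] at h4
      linear_combination (-1 : F) * h4 + 2 * W.a₁ * hy'
    have h4ne : (4 : F) ≠ 0 := by
      have : (4 : F) = 2 * 2 := by norm_num
      rw [this]
      exact mul_ne_zero h2 h2
    exact (mul_eq_zero.mp h4').resolve_left h4ne
  · exact hns hy'

/-- A nonzero point whose `x`-coordinate is a root of `ψ₃` is `3`-torsion. -/
theorem three_nsmul_eq_zero_of_psi3 (h2 : (2 : F) ≠ 0) {P : W.toAffine.Point} (hP : P ≠ 0)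
    (h3 : psi3 W (xOf P) = 0) : (3 : ℕ) • P = 0 := by
  have hF : dF W (xOf P) ≠ 0 := by
    cases P with
    | zero => exact absurd rfl hP
    | some x y h => exact dF_ne_zero_of_psi3 h2 h h3
  have h2P : (2 : ℕ) • P ≠ 0 := fun h => hF ((two_nsmul_eq_zero_iff' hP).mp h)
  have hx := xOf_two_nsmul hP h2P
  have hx' : xOf ((2 : ℕ) • P) = xOf P := by
    rw [psi3_eq, sub_eq_zero] at h3
    rw [← h3] at hx
    exact mul_right_cancel₀ hF hx
  have h3' : (3 : ℕ) • P = (2 : ℕ) • P + P := by rw [succ_nsmul]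
  rcases eq_or_eq_neg_of_xOf_eq h2P hP hx' with h | h
  · exfalso
    apply hP
    have : (2 : ℕ) • P = P + P := two_nsmul P
    rw [this] at h
    exact add_left_cancel (a := P) (by rw [h, add_zero])
  · rw [h3', h, neg_add_cancel]

/-- The relations satisfied by the `x`-coordinates of `P` and `2P` for a nonzero `5`-torsion
point `P`. -/
theorem five_torsion_relations {P : W.toAffine.Point} (hP : P ≠ 0) (h5 : (5 : ℕ) • P = 0) :
    (2 : ℕ) • P ≠ 0 ∧
    xOf ((2 : ℕ) • P) * dF W (xOf P) = dN W (xOf P) ∧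
    xOf P * dF W (xOf ((2 : ℕ) • P)) = dN W (xOf ((2 : ℕ) • P)) ∧
    xOf P ≠ xOf ((2 : ℕ) • P) ∧ dF W (xOf P) ≠ 0 ∧ dF W (xOf ((2 : ℕ) • P)) ≠ 0 := by
  have h2 : (2 : ℕ) • P ≠ 0 := by
    intro h2
    apply hP
    have : (5 : ℕ) • P = (2 : ℕ) • ((2 : ℕ) • P) + P := by
      rw [← mul_nsmul, show (5 : ℕ) = 2 * 2 + 1 from rfl, succ_nsmul]
    rw [h5, h2, nsmul_zero, zero_add] at this
    exact this.symm
  have h4eq : (2 : ℕ) • ((2 : ℕ) • P) = -P := by
    have : (5 : ℕ) • P = (2 : ℕ) • ((2 : ℕ) • P) + P := by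
      rw [← mul_nsmul, show (5 : ℕ) = 2 * 2 + 1 from rfl, succ_nsmul]
    rw [h5] at this
    exact eq_neg_of_add_eq_zero_left this.symm
  have h4 : (2 : ℕ) • ((2 : ℕ) • P) ≠ 0 := by
    rw [h4eq]
    exact neg_ne_zero.mpr hP
  have hx1 := xOf_two_nsmul hP h2
  have hx2 := xOf_two_nsmul h2 h4
  rw [h4eq, xOf_neg] at hx2
  refine ⟨h2, hx1, hx2, ?_, fun h => h2 ((two_nsmul_eq_zero_iff' hP).mpr h),
    fun h => h4 ((two_nsmul_eq_zero_iff' h2).mpr h)⟩
  intro hxx
  -- `2P = ±P` is impossible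
  rcases eq_or_eq_neg_of_xOf_eq hP h2 hxx with h | h
  · apply hP
    have : (2 : ℕ) • P = P + P := two_nsmul P
    rw [this] at h
    exact add_left_cancel (a := P) (by rw [← h, add_zero])
  · -- `3P = 0` and `5P = 0` give `P = 0`
    apply hP
    have h3 : (3 : ℕ) • P = 0 := by
      have : (3 : ℕ) • P = (2 : ℕ) • P + P := by rw [succ_nsmul]
      rw [this]
      nth_rewrite 2 [h]
      rw [add_neg_cancel]
    have : (5 : ℕ) • P = (2 : ℕ) • ((3 : ℕ) • P) - P := by abel
    rw [h5, h3, nsmul_zero, zero_sub] at this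
    exact neg_eq_zero.mp this.symm

/-- Conversely the relations force `5P = 0`. -/
theorem five_nsmul_eq_zero_of_relations {P : W.toAffine.Point} (hP : P ≠ 0) {x2 : F}
    (h1 : x2 * dF W (xOf P) = dN W (xOf P)) (h2 : xOf P * dF W x2 = dN W x2)
    (hne : xOf P ≠ x2) (hF1 : dF W (xOf P) ≠ 0) (hF2 : dF W x2 ≠ 0) : (5 : ℕ) • P = 0 := by
  have h2P : (2 : ℕ) • P ≠ 0 := fun h => hF1 ((two_nsmul_eq_zero_iff' hP).mp h)
  have hx1 := xOf_two_nsmul hP h2P
  have hx2 : xOf ((2 : ℕ) • P) = x2 := by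
    rw [← h1] at hx1
    exact mul_right_cancel₀ hF1 hx1
  have h4P : (2 : ℕ) • ((2 : ℕ) • P) ≠ 0 := by
    intro h
    rw [two_nsmul_eq_zero_iff' h2P, hx2] at h
    exact hF2 h
  have hx4 := xOf_two_nsmul h2P h4P
  rw [hx2, ← h2] at hx4
  have hx4' : xOf ((2 : ℕ) • ((2 : ℕ) • P)) = xOf P := mul_right_cancel₀ hF2 hx4
  have h5 : (5 : ℕ) • P = (2 : ℕ) • ((2 : ℕ) • P) + P := by
    rw [← mul_nsmul, show (5 : ℕ) = 2 * 2 + 1 from rfl, succ_nsmul]
  rcases eq_or_eq_neg_of_xOf_eq h4P hP hx4' with h | h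
  · -- `4P = P` gives `3P = 0`, hence `x(2P) = x(P)`
    exfalso
    apply hne
    have h3 : (2 : ℕ) • P = -P := by
      have h4 : (2 : ℕ) • ((2 : ℕ) • P) = (2 : ℕ) • P + P + P := by abel
      rw [h4] at h
      have : (2 : ℕ) • P + P = 0 := add_right_cancel (b := P) (by rw [h, zero_add])
      exact eq_neg_of_add_eq_zero_left this
    rw [← hx2, h3, xOf_neg]
  · rw [h5, h, neg_add_cancel]

end Torsion

end Fermat.Agent.S51
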