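import Mathlib
import Fermat.Agent.S51.Dup

set_option autoImplicit false
set_option linter.unusedSectionVars false

namespace Fermat.Agent.S51

open WeierstrassCurve Polynomial

section Card

variable {F : Type*} [Field F] [DecidableEq F] {W : WeierstrassCurve F}

open WeierstrassCurve.Affine

/-- coordinates of a point, as an option -/
def toOpt : W.toAffine.Point → Option (F × F)
  | .zero => none
  | .some x y _ => some (x, y)

theorem toOpt_injective : Function.Injective (toOpt (W := W)) := by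
  rintro (_ | ⟨x₁, y₁, h₁⟩) (_ | ⟨x₂, y₂, h₂⟩) h <;>
    simp only [toOpt, Option.some.injEq, Prod.mk.injEq, reduceCtorEq] at h
  · rfl
  · obtain ⟨rfl, rfl⟩ := h; rfl

/-- the Weierstrass equation as a quadratic polynomial in `y` -/
noncomputable def quadY (W : WeierstrassCurve F) (x : F) : F[X] :=
  X ^ 2 + C (W.a₁ * x + W.a₃) * X - C (x ^ 3 + W.a₂ * x ^ 2 + W.a₄ * x + W.a₆)

theorem natDegree_quadY (x : F) : (quadY W x).natDegree = 2 := by
  unfold quadY
  compute_degree!

theorem quadY_ne_zero (x : F) : quadY W x ≠ 0 := by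
  intro h
  have := natDegree_quadY (W := W) x
  rw [h, natDegree_zero] at this
  exact absurd this (by norm_num)

theorem eval_quadY {x y : F} (h : W.toAffine.Equation x y) : (quadY W x).eval y = 0 := by
  rw [Affine.equation_iff] at h
  simp only [quadY, eval_sub, eval_add, eval_pow, eval_X, eval_mul, eval_C]
  linear_combination h

/-- the finite set of pairs `(x, y)` on the curve with `x` a root of `g` -/
noncomputable def pairSet (W : WeierstrassCurve F) (g : F[X]) : Finset (F × F) :=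
  g.roots.toFinset.biUnion fun x => (quadY W x).roots.toFinset.image fun y => (x, y)

theorem card_pairSet_le (g : F[X]) : (pairSet W g).card ≤ 2 * g.natDegree := by
  unfold pairSet
  refine Finset.card_biUnion_le.trans ?_
  have h1 : ∀ x ∈ g.roots.toFinset,
      ((quadY W x).roots.toFinset.image fun y => (x, y)).card ≤ 2 := by
    intro x _
    refine Finset.card_image_le.trans ((Multiset.toFinset_card_le _).trans ?_)
    exact (card_roots' _).trans (natDegree_quadY x).le
  refine (Finset.sum_le_card_nsmul _ _ 2 h1).trans ?_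
  rw [smul_eq_mul, mul_comm]
  exact Nat.mul_le_mul_left 2 ((Multiset.toFinset_card_le _).trans (card_roots' _))

/-- A subgroup all of whose nonzero points have `x`-coordinate a root of a fixed nonzero polynomial
is finite, of cardinality at most `2 deg g + 1`. -/
theorem finite_and_card_le (A : AddSubgroup W.toAffine.Point) (g : F[X]) (hg : g ≠ 0)
    (h : ∀ P ∈ A, P ≠ 0 → g.eval (xOf P) = 0) :
    Finite A ∧ Nat.card A ≤ 2 * g.natDegree + 1 := by
  classical
  set T : Finset (Option (F × F)) := insert none ((pairSet W g).image some) with hT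
  have hmem : ∀ P : A, toOpt (P : W.toAffine.Point) ∈ T := by
    rintro ⟨P, hPA⟩
    cases P with
    | zero => exact Finset.mem_insert_self _ _
    | some x y hxy =>
      refine Finset.mem_insert_of_mem (Finset.mem_image_of_mem _ ?_)
      have hx : g.eval x = 0 := h _ hPA (Point.some_ne_zero _)
      simp only [pairSet, Finset.mem_biUnion, Multiset.mem_toFinset, Finset.mem_image]
      refine ⟨x, (mem_roots hg).mpr hx, y, (mem_roots (quadY_ne_zero x)).mpr (eval_quadY hxy.1), rfl⟩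
  let f : A → T := fun P => ⟨toOpt (P : W.toAffine.Point), hmem P⟩
  have hf : Function.Injective f := by
    intro P Q hPQ
    have : toOpt (P : W.toAffine.Point) = toOpt (Q : W.toAffine.Point) := congrArg Subtype.val hPQ
    exact Subtype.ext (toOpt_injective this)
  have hfin : Finite A := Finite.of_injective f hf
  refine ⟨hfin, ?_⟩
  have h1 : Nat.card A ≤ Nat.card T := Nat.card_le_card_of_injective f hf
  have h2 : Nat.card T = T.card := Nat.card_eq_finsetCard T
  have h3 : T.card ≤ (pairSet W g).card + 1 :=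
    (Finset.card_insert_le _ _).trans (Nat.add_le_add_right Finset.card_image_le 1)
  have h4 := card_pairSet_le (W := W) g
  omega

end Card


section Lin

/-- In a vector space over `𝔽_p` with fewer than `p³` elements, a proper nonzero subspace is a
line, generated by any of its nonzero vectors. -/
theorem exists_smul_eq_of_proper {p : ℕ} [Fact p.Prime] {V : Type*} [AddCommGroup V]
    [Module (ZMod p) V] [Finite V] (hcard : Nat.card V < p ^ 3) (N : Submodule (ZMod p) V)
    (hbot : N ≠ ⊥) (htop : N ≠ ⊤) {P : V} (hP : P ∈ N) (hP0 : P ≠ 0) {Q : V} (hQ : Q ∈ N) :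
    ∃ c : ZMod p, Q = c • P := by
  have hp : 1 < p := (Fact.out : p.Prime).one_lt
  have hfd : Module.Finite (ZMod p) V := Module.Finite.of_finite
  have h1 : Nat.card V = p ^ Module.finrank (ZMod p) V := by
    rw [Module.natCard_eq_pow_finrank (K := ZMod p) (V := V), Nat.card_zmod]
  have h2 : Module.finrank (ZMod p) V < 3 := by
    rw [h1] at hcard
    exact (Nat.pow_lt_pow_iff_right hp).mp hcard
  have h3 : Module.finrank (ZMod p) N < Module.finrank (ZMod p) V := Submodule.finrank_lt htop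
  have h4 : 0 < Module.finrank (ZMod p) N := by
    rw [Module.finrank_pos_iff]
    exact (Submodule.nontrivial_iff_ne_bot).mpr hbot
  have h5 : Module.finrank (ZMod p) N = 1 := by omega
  have hPN : (⟨P, hP⟩ : N) ≠ 0 := fun h => hP0 (congrArg Subtype.val h)
  obtain ⟨c, hc⟩ := (finrank_eq_one_iff_of_nonzero' (⟨P, hP⟩ : N) hPN).mp h5 ⟨Q, hQ⟩
  exact ⟨c, (congrArg Subtype.val hc).symm⟩

end Lin


section TorsionCard

variable {F : Type*} [Field F] [DecidableEq F] [CharZero F] {W : WeierstrassCurve F}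

open WeierstrassCurve.Affine

/-- `ψ₃` as a polynomial -/
noncomputable def psi3Poly (W : WeierstrassCurve F) : F[X] :=
  C 3 * X ^ 4 + C W.b₂ * X ^ 3 + C (3 * W.b₄) * X ^ 2 + C (3 * W.b₆) * X + C W.b₈

theorem eval_psi3Poly (x : F) : (psi3Poly W).eval x = psi3 W x := by
  simp only [psi3Poly, psi3, eval_add, eval_mul, eval_C, eval_pow, eval_X]

theorem natDegree_psi3Poly : (psi3Poly W).natDegree = 4 := by
  unfold psi3Poly
  compute_degree!

theorem psi3Poly_ne_zero : psi3Poly W ≠ 0 := by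
  intro h
  have := natDegree_psi3Poly (W := W)
  rw [h, natDegree_zero] at this
  exact absurd this (by norm_num)

/-- `ψ₂²` as a polynomial -/
noncomputable def dFPoly (W : WeierstrassCurve F) : F[X] :=
  C 4 * X ^ 3 + C W.b₂ * X ^ 2 + C (2 * W.b₄) * X + C W.b₆

/-- `φ₂` as a polynomial -/
noncomputable def dNPoly (W : WeierstrassCurve F) : F[X] :=
  X ^ 4 - C W.b₄ * X ^ 2 - C (2 * W.b₆) * X - C W.b₈

theorem eval_dFPoly (x : F) : (dFPoly W).eval x = dF W x := by
  simp only [dFPoly, dF, eval_add, eval_mul, eval_C, eval_pow, eval_X]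

theorem eval_dNPoly (x : F) : (dNPoly W).eval x = dN W x := by
  simp only [dNPoly, dN, eval_sub, eval_mul, eval_C, eval_pow, eval_X]

/-- the numerator of `x(4P) - x(P)`, a polynomial of degree `16` -/
noncomputable def gPoly (W : WeierstrassCurve F) : F[X] :=
  ((X ^ 4 - C W.b₄ * X ^ 2 - C (2 * W.b₆) * X - C W.b₈) ^ 4
    - C W.b₄ * (X ^ 4 - C W.b₄ * X ^ 2 - C (2 * W.b₆) * X - C W.b₈) ^ 2 *
        (C 4 * X ^ 3 + C W.b₂ * X ^ 2 + C (2 * W.b₄) * X + C W.b₆) ^ 2
    - C (2 * W.b₆) * (X ^ 4 - C W.b₄ * X ^ 2 - C (2 * W.b₆) * X - C W.b₈) *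
        (C 4 * X ^ 3 + C W.b₂ * X ^ 2 + C (2 * W.b₄) * X + C W.b₆) ^ 3
    - C W.b₈ * (C 4 * X ^ 3 + C W.b₂ * X ^ 2 + C (2 * W.b₄) * X + C W.b₆) ^ 4)
  - X * (C 4 * (X ^ 4 - C W.b₄ * X ^ 2 - C (2 * W.b₆) * X - C W.b₈) ^ 3 *
        (C 4 * X ^ 3 + C W.b₂ * X ^ 2 + C (2 * W.b₄) * X + C W.b₆)
    + C W.b₂ * (X ^ 4 - C W.b₄ * X ^ 2 - C (2 * W.b₆) * X - C W.b₈) ^ 2 *
        (C 4 * X ^ 3 + C W.b₂ * X ^ 2 + C (2 * W.b₄) * X + C W.b₆) ^ 2
    + C (2 * W.b₄) * (X ^ 4 - C W.b₄ * X ^ 2 - C (2 * W.b₆) * X - C W.b₈) *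
        (C 4 * X ^ 3 + C W.b₂ * X ^ 2 + C (2 * W.b₄) * X + C W.b₆) ^ 3
    + C W.b₆ * (C 4 * X ^ 3 + C W.b₂ * X ^ 2 + C (2 * W.b₄) * X + C W.b₆) ^ 4)

theorem natDegree_gPoly : (gPoly W).natDegree = 16 := by
  unfold gPoly
  compute_degree!

theorem gPoly_ne_zero : gPoly W ≠ 0 := by
  intro h
  have := natDegree_gPoly (W := W)
  rw [h, natDegree_zero] at this
  exact absurd this (by norm_num)

theorem eval_gPoly (x : F) : (gPoly W).eval x =
    (dN W x ^ 4 - W.b₄ * dN W x ^ 2 * dF W x ^ 2 - 2 * W.b₆ * dN W x * dF W x ^ 3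
      - W.b₈ * dF W x ^ 4)
    - x * (4 * dN W x ^ 3 * dF W x + W.b₂ * dN W x ^ 2 * dF W x ^ 2
      + 2 * W.b₄ * dN W x * dF W x ^ 3 + W.b₆ * dF W x ^ 4) := by
  simp only [gPoly, dF, dN, eval_sub, eval_add, eval_mul, eval_C, eval_pow, eval_X]

theorem eval_gPoly_eq_zero {x1 x2 : F} (h1 : x2 * dF W x1 = dN W x1)
    (h2 : x1 * dF W x2 = dN W x2) : (gPoly W).eval x1 = 0 := by
  rw [eval_gPoly, ← h1]
  have : (x2 * dF W x1) ^ 4 - W.b₄ * (x2 * dF W x1) ^ 2 * dF W x1 ^ 2
      - 2 * W.b₆ * (x2 * dF W x1) * dF W x1 ^ 3 - W.b₈ * dF W x1 ^ 4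
      - x1 * (4 * (x2 * dF W x1) ^ 3 * dF W x1 + W.b₂ * (x2 * dF W x1) ^ 2 * dF W x1 ^ 2
        + 2 * W.b₄ * (x2 * dF W x1) * dF W x1 ^ 3 + W.b₆ * dF W x1 ^ 4)
      = dF W x1 ^ 4 * (dN W x2 - x1 * dF W x2) := by
    simp only [dN, dF]
    ring
  rw [this, h2, sub_self, mul_zero]

theorem mem_torsionBy_iff_nsmul {n : ℕ} {P : W.toAffine.Point} :
    P ∈ Submodule.torsionBy ℤ W.toAffine.Point n ↔ n • P = 0 := by
  rw [Submodule.mem_torsionBy_iff, natCast_zsmul]

theorem torsion_three_card :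
    Finite (Submodule.torsionBy ℤ W.toAffine.Point (3 : ℕ)) ∧
      Nat.card (Submodule.torsionBy ℤ W.toAffine.Point (3 : ℕ)) ≤ 9 := by
  have := finite_and_card_le (W := W)
    (Submodule.torsionBy ℤ W.toAffine.Point (3 : ℕ)).toAddSubgroup (psi3Poly W) psi3Poly_ne_zero
    (fun P hP hP0 => by
      rw [eval_psi3Poly]
      exact psi3_xOf_eq_zero hP0 (mem_torsionBy_iff_nsmul.mp hP))
  rw [natDegree_psi3Poly] at this
  exact this

theorem torsion_five_card :
    Finite (Submodule.torsionBy ℤ W.toAffine.Point (5 : ℕ)) ∧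
      Nat.card (Submodule.torsionBy ℤ W.toAffine.Point (5 : ℕ)) ≤ 33 := by
  have := finite_and_card_le (W := W)
    (Submodule.torsionBy ℤ W.toAffine.Point (5 : ℕ)).toAddSubgroup (gPoly W) gPoly_ne_zero
    (fun P hP hP0 => by
      obtain ⟨-, h1, h2, -, -, -⟩ := five_torsion_relations hP0 (mem_torsionBy_iff_nsmul.mp hP)
      exact eval_gPoly_eq_zero h1 h2)
  rw [natDegree_gPoly] at this
  exact this

end TorsionCard

end Fermat.Agent.S51
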