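import Mathlib
import Fermat.Agent.S51.Dup
import Fermat.Agent.S51.Count
import Fermat.Prelude.Def_FLTPrelim_GaloisRep

/-!
# S51 (D): nontriviality of `E[5]` (and `E[3]`) over an algebraically closed field

For a Weierstrass curve `W` with `Δ ≠ 0` over an algebraically closed field of characteristic zero
we exhibit a nonzero point of order `5` (and one of order `3`).

Route: the fifth division polynomial `ψ₅ = Ψ₄ ψ₂⁴ - ψ₃³` (degree `12`, leading coefficient `5`) has a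
root `x₁`; explicit polynomial identities (checked by `linear_combination` with the `b`-relation)
show that `x₁` is not a root of `ψ₃`, `ψ₂²`, `Ψ₄`, and that `x₂ := φ₂(x₁)/ψ₂²(x₁)` satisfies the two
doubling relations, so helper4's `five_nsmul_eq_zero_of_relations` applies.
-/

set_option autoImplicit false
set_option linter.unusedSectionVars false

namespace Fermat.Agent.S51

open WeierstrassCurve Polynomial

section Identities

variable {F : Type*} [Field F] (W : WeierstrassCurve F)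

/-- `ψ₄ / ψ₂ = 2x⁶ + b₂x⁵ + 5b₄x⁴ + 10b₆x³ + 10b₈x² + (b₂b₈ - b₄b₆)x + (b₄b₈ - b₆²)`. -/
def Psi4 (x : F) : F :=
  2 * x ^ 6 + W.b₂ * x ^ 5 + 5 * W.b₄ * x ^ 4 + 10 * W.b₆ * x ^ 3 + 10 * W.b₈ * x ^ 2
    + (W.b₂ * W.b₈ - W.b₄ * W.b₆) * x + (W.b₄ * W.b₈ - W.b₆ ^ 2)

/-- `ψ₅ = (ψ₄/ψ₂) ψ₂⁴ - ψ₃³`, as a function of `x`. -/
def psi5 (x : F) : F := Psi4 W x * dF W x ^ 2 - psi3 W x ^ 3

/-- `Ψ₄ ≡ -ψ₂⁴ mod ψ₃`. -/
theorem Psi4_add_dF_sq (x : F) :
    Psi4 W x + dF W x ^ 2 = psi3 W x * (6 * x ^ 2 + W.b₂ * x + W.b₄) := by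
  simp only [Psi4, dF, psi3]
  linear_combination (x ^ 2) * W.b_relation

/-- `ψ₂²(2P) ψ₂⁶ = Ψ₄²`. -/
theorem dF_dup_eq (x : F) :
    4 * dN W x ^ 3 + W.b₂ * dN W x ^ 2 * dF W x + 2 * W.b₄ * dN W x * dF W x ^ 2
      + W.b₆ * dF W x ^ 3 = Psi4 W x ^ 2 := by
  simp only [Psi4, dF, dN]
  linear_combination (-13*x^8 - 8*x^7*W.b₂ - x^6*W.b₂^2 - 28*x^6*W.b₄ - 6*x^5*W.b₂*W.b₄
    - 38*x^5*W.b₆ - 7*x^4*W.b₂*W.b₆ - 8*x^4*W.b₄^2 - 22*x^4*W.b₈ - 4*x^3*W.b₂*W.b₈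
    - 16*x^3*W.b₄*W.b₆ - 8*x^2*W.b₄*W.b₈ - 7*x^2*W.b₆^2 - 6*x*W.b₆*W.b₈ - W.b₈^2) * W.b_relation

/-- The numerator of `x(4P) - x(P)` is `-ψ₃ ψ₅`. -/
theorem quad_dup_factor (x : F) :
    (dN W x ^ 4 - W.b₄ * dN W x ^ 2 * dF W x ^ 2 - 2 * W.b₆ * dN W x * dF W x ^ 3
        - W.b₈ * dF W x ^ 4)
      - x * (4 * dN W x ^ 3 * dF W x + W.b₂ * dN W x ^ 2 * dF W x ^ 2
        + 2 * W.b₄ * dN W x * dF W x ^ 3 + W.b₆ * dF W x ^ 4)
      = -(psi3 W x * psi5 W x) := by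
  simp only [psi5, Psi4, dF, dN, psi3]
  linear_combination (48*x^12 + 40*x^11*W.b₂ + 11*x^10*W.b₂^2 + 96*x^10*W.b₄ + x^9*W.b₂^3
    + 52*x^9*W.b₂*W.b₄ + 72*x^9*W.b₆ + 7*x^8*W.b₂^2*W.b₄ + 38*x^8*W.b₂*W.b₆ + 60*x^8*W.b₄^2
    + 16*x^8*W.b₈ + 5*x^7*W.b₂^2*W.b₆ + 16*x^7*W.b₂*W.b₄^2 + 8*x^7*W.b₂*W.b₈ + 84*x^7*W.b₄*W.b₆
    + x^6*W.b₂^2*W.b₈ + 22*x^6*W.b₂*W.b₄*W.b₆ + 12*x^6*W.b₄^3 + 16*x^6*W.b₄*W.b₈ + 27*x^6*W.b₆^2
    + 4*x^5*W.b₂*W.b₄*W.b₈ + 7*x^5*W.b₂*W.b₆^2 + 24*x^5*W.b₄^2*W.b₆ + 8*x^5*W.b₆*W.b₈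
    + 2*x^4*W.b₂*W.b₆*W.b₈ + 4*x^4*W.b₄^2*W.b₈ + 15*x^4*W.b₄*W.b₆^2 + 4*x^3*W.b₄*W.b₆*W.b₈
    + 3*x^3*W.b₆^3 + x^2*W.b₆^2*W.b₈) * W.b_relation

end Identities

section Exists

variable {K : Type*} [Field K] [DecidableEq K] [IsAlgClosed K] [CharZero K]
  (W : WeierstrassCurve K)

open WeierstrassCurve.Affine

/-- `ψ₅` as a polynomial. -/
noncomputable def psi5Poly : K[X] :=
  (C 2 * X ^ 6 + C W.b₂ * X ^ 5 + C (5 * W.b₄) * X ^ 4 + C (10 * W.b₆) * X ^ 3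
      + C (10 * W.b₈) * X ^ 2 + C (W.b₂ * W.b₈ - W.b₄ * W.b₆) * X + C (W.b₄ * W.b₈ - W.b₆ ^ 2))
    * (C 4 * X ^ 3 + C W.b₂ * X ^ 2 + C (2 * W.b₄) * X + C W.b₆) ^ 2
  - (C 3 * X ^ 4 + C W.b₂ * X ^ 3 + C (3 * W.b₄) * X ^ 2 + C (3 * W.b₆) * X + C W.b₈) ^ 3

theorem eval_psi5Poly (x : K) : (psi5Poly W).eval x = psi5 W x := by
  simp only [psi5Poly, psi5, Psi4, dF, psi3, eval_sub, eval_add, eval_mul, eval_C, eval_pow, eval_X]

theorem natDegree_psi5Poly : (psi5Poly W).natDegree = 12 := by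
  unfold psi5Poly
  compute_degree!

/-- Over an algebraically closed field every `x` is the `x`-coordinate of a point. -/
theorem exists_equation (x : K) : ∃ y : K, W.toAffine.Equation x y := by
  have hdeg : (quadY W x).degree ≠ 0 := by
    rw [degree_eq_natDegree (quadY_ne_zero x), natDegree_quadY]
    norm_num
  obtain ⟨y, hy⟩ := IsAlgClosed.exists_root (quadY W x) hdeg
  refine ⟨y, ?_⟩
  rw [Affine.equation_iff]
  have hy' : (quadY W x).eval y = 0 := hy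
  simp only [quadY, eval_sub, eval_add, eval_pow, eval_X, eval_mul, eval_C] at hy'
  linear_combination hy'

/-- Over an algebraically closed field of characteristic zero, a Weierstrass curve with `Δ ≠ 0`
has a nonzero `3`-torsion point. -/
theorem exists_three_torsion_of_isAlgClosed (hΔ : W.Δ ≠ 0) :
    ∃ P : W.toAffine.Point, P ≠ 0 ∧ (3 : ℕ) • P = 0 := by
  have hdeg : (psi3Poly W).degree ≠ 0 := by
    rw [degree_eq_natDegree psi3Poly_ne_zero, natDegree_psi3Poly]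
    norm_num
  obtain ⟨x, hx⟩ := IsAlgClosed.exists_root (psi3Poly W) hdeg
  have hx' : psi3 W x = 0 := by rw [← eval_psi3Poly]; exact hx
  obtain ⟨y, hy⟩ := exists_equation W x
  have hns : W.toAffine.Nonsingular x y := (Affine.equation_iff_nonsingular_of_Δ_ne_zero hΔ).mp hy
  refine ⟨Point.some x y hns, Point.some_ne_zero _, ?_⟩
  exact three_nsmul_eq_zero_of_psi3 (two_ne_zero) (Point.some_ne_zero _) hx'

/-- Over an algebraically closed field of characteristic zero, a Weierstrass curve with `Δ ≠ 0`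
has a nonzero `5`-torsion point. -/
theorem exists_five_torsion_of_isAlgClosed (hΔ : W.Δ ≠ 0) :
    ∃ P : W.toAffine.Point, P ≠ 0 ∧ (5 : ℕ) • P = 0 := by
  have hdeg : (psi5Poly W).degree ≠ 0 := by
    have hne : psi5Poly W ≠ 0 := by
      intro h
      have := natDegree_psi5Poly W
      rw [h, natDegree_zero] at this
      exact absurd this (by norm_num)
    rw [degree_eq_natDegree hne, natDegree_psi5Poly]
    norm_num
  obtain ⟨x1, hx⟩ := IsAlgClosed.exists_root (psi5Poly W) hdeg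
  have h5 : psi5 W x1 = 0 := by rw [← eval_psi5Poly]; exact hx
  obtain ⟨y1, hy⟩ := exists_equation W x1
  have hns : W.toAffine.Nonsingular x1 y1 :=
    (Affine.equation_iff_nonsingular_of_Δ_ne_zero hΔ).mp hy
  have h2 : (2 : K) ≠ 0 := two_ne_zero
  -- `x1` is not a root of `ψ₃`
  have hpsi3 : psi3 W x1 ≠ 0 := by
    intro h3
    have hF : dF W x1 ≠ 0 := dF_ne_zero_of_psi3 h2 hns h3
    have h4 := Psi4_add_dF_sq W x1
    rw [h3, zero_mul] at h4
    have : dF W x1 ^ 4 = 0 := by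
      have h5' := h5
      simp only [psi5] at h5'
      rw [h3] at h5'
      linear_combination (dF W x1 ^ 2) * h4 - h5'
    exact hF (pow_eq_zero_iff (by norm_num) |>.mp this)
  -- nor of `ψ₂²`
  have hF1 : dF W x1 ≠ 0 := by
    intro hF
    have : psi3 W x1 ^ 3 = 0 := by
      have h5' := h5
      simp only [psi5] at h5'
      rw [hF] at h5'
      linear_combination -h5'
    exact hpsi3 (pow_eq_zero_iff (by norm_num) |>.mp this)
  -- nor of `Ψ₄`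
  have hP4 : Psi4 W x1 ≠ 0 := by
    intro h4
    have : psi3 W x1 ^ 3 = 0 := by
      have h5' := h5
      simp only [psi5] at h5'
      rw [h4] at h5'
      linear_combination -h5'
    exact hpsi3 (pow_eq_zero_iff (by norm_num) |>.mp this)
  set x2 : K := dN W x1 / dF W x1 with hx2
  have hr1 : x2 * dF W x1 = dN W x1 := div_mul_cancel₀ _ hF1
  -- `ψ₂²(x2) ≠ 0`
  have hF2 : dF W x2 ≠ 0 := by
    intro hF
    have hkey : dF W x2 * dF W x1 ^ 3 = Psi4 W x1 ^ 2 := by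
      rw [← dF_dup_eq W x1, ← hr1]
      simp only [dF]
      ring
    rw [hF, zero_mul] at hkey
    exact hP4 (pow_eq_zero_iff (by norm_num) |>.mp hkey.symm)
  have hne : x1 ≠ x2 := by
    intro h
    apply hpsi3
    rw [psi3_eq, ← hr1, ← h]
    ring
  have hr2 : x1 * dF W x2 = dN W x2 := by
    have hq := quad_dup_factor W x1
    rw [h5, mul_zero, neg_zero, ← hr1] at hq
    have hq' : dF W x1 ^ 4 * (dN W x2 - x1 * dF W x2) = 0 := by
      rw [← hq]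
      simp only [dN, dF]
      ring
    have := (mul_eq_zero.mp hq').resolve_left (pow_ne_zero 4 hF1)
    linear_combination -this
  refine ⟨Point.some x1 y1 hns, Point.some_ne_zero _, ?_⟩
  exact five_nsmul_eq_zero_of_relations (P := Point.some x1 y1 hns) (Point.some_ne_zero _)
    (x2 := x2) hr1 hr2 hne hF1 hF2

end Exists

section Rat

open WeierstrassCurve.Affine

variable {K : Type*} [Field K] [DecidableEq K] [IsAlgClosed K] [CharZero K] [Algebra ℚ K]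

theorem baseChange_Δ_ne_zero (E : WeierstrassCurve ℚ) (hΔ : E.Δ ≠ 0) :
    ((E : WeierstrassCurve.Affine ℚ)⁄K).Δ ≠ 0 := by
  show (E.map (algebraMap ℚ K)).Δ ≠ 0
  rw [WeierstrassCurve.map_Δ]
  exact (map_ne_zero (algebraMap ℚ K)).mpr hΔ

/-- general algebraically closed `K ⊇ ℚ`: a nonzero point of order `5` on the base change -/
theorem exists_point_order_five_of_isAlgClosed (E : WeierstrassCurve ℚ) (hΔ : E.Δ ≠ 0) :
    ∃ P : ((E : WeierstrassCurve.Affine ℚ)⁄K).Point, P ≠ 0 ∧ (5 : ℤ) • P = 0 := by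
  obtain ⟨P, hP, h5⟩ :=
    exists_five_torsion_of_isAlgClosed ((E : WeierstrassCurve.Affine ℚ)⁄K)
      (baseChange_Δ_ne_zero E hΔ)
  refine ⟨P, hP, ?_⟩
  rw [← h5]
  exact natCast_zsmul P 5

/-- general algebraically closed `K ⊇ ℚ`: a nonzero point of order `3` on the base change -/
theorem exists_point_order_three_of_isAlgClosed (E : WeierstrassCurve ℚ) (hΔ : E.Δ ≠ 0) :
    ∃ P : ((E : WeierstrassCurve.Affine ℚ)⁄K).Point, P ≠ 0 ∧ (3 : ℤ) • P = 0 := by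
  obtain ⟨P, hP, h3⟩ :=
    exists_three_torsion_of_isAlgClosed ((E : WeierstrassCurve.Affine ℚ)⁄K)
      (baseChange_Δ_ne_zero E hΔ)
  refine ⟨P, hP, ?_⟩
  rw [← h3]
  exact natCast_zsmul P 3

end Rat

section RatBar

open WeierstrassCurve.Affine

/-- **(D)** A nonzero point of order `5` over `ℚ̄` (shape of `GaloisRepIsIrreducible`). -/
theorem exists_point_order_five (E : WeierstrassCurve ℚ) (hΔ : E.Δ ≠ 0) :
    ∃ P : ((E : WeierstrassCurve.Affine ℚ)⁄(AlgebraicClosure ℚ)).Point,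
      P ≠ 0 ∧ (5 : ℤ) • P = 0 :=
  exists_point_order_five_of_isAlgClosed E hΔ

/-- A nonzero point of order `3` over `ℚ̄`. -/
theorem exists_point_order_three (E : WeierstrassCurve ℚ) (hΔ : E.Δ ≠ 0) :
    ∃ P : ((E : WeierstrassCurve.Affine ℚ)⁄(AlgebraicClosure ℚ)).Point,
      P ≠ 0 ∧ (3 : ℤ) • P = 0 :=
  exists_point_order_three_of_isAlgClosed E hΔ

/-- The first half of `GaloisRepIsIrreducible … 5`. -/
theorem nontrivial_torsionBy_five (E : WeierstrassCurve ℚ) (hΔ : E.Δ ≠ 0) :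
    Nontrivial (Submodule.torsionBy ℤ
      ((E : WeierstrassCurve.Affine ℚ)⁄(AlgebraicClosure ℚ)).Point (5 : ℕ)) := by
  obtain ⟨P, hP, h5⟩ := exists_point_order_five E hΔ
  refine ⟨⟨⟨P, ?_⟩, 0, ?_⟩⟩
  · rw [Submodule.mem_torsionBy_iff]
    exact h5
  · intro h
    exact hP (congrArg Subtype.val h)

/-- The first half of `GaloisRepIsIrreducible … 3`. -/
theorem nontrivial_torsionBy_three (E : WeierstrassCurve ℚ) (hΔ : E.Δ ≠ 0) :
    Nontrivial (Submodule.torsionBy ℤ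
      ((E : WeierstrassCurve.Affine ℚ)⁄(AlgebraicClosure ℚ)).Point (3 : ℕ)) := by
  obtain ⟨P, hP, h3⟩ := exists_point_order_three E hΔ
  refine ⟨⟨⟨P, ?_⟩, 0, ?_⟩⟩
  · rw [Submodule.mem_torsionBy_iff]
    exact h3
  · intro h
    exact hP (congrArg Subtype.val h)

end RatBar

end Fermat.Agent.S51
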