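/-
S51 (helper7): the `s`-parameter of a cyclic subgroup of order 5, pure algebra.

Input: the `b`-invariants of a Weierstrass curve (with the relation `4 b₈ = b₂ b₆ - b₄²`) and
two distinct numbers `x₁ x₂` (the `x`-coordinates of `P` and `2P`, `P` of order 5) with
`x₂ = dup x₁` and `x₁ = dup x₂` (in cleared-denominator form).
Output: `s` with `c₄³ s = Δ (s² + 10 s + 5)³`, `s ≠ 0`, symmetric in `x₁, x₂`.
-/
import Mathlib

set_option autoImplicit false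

namespace Fermat.Agent.S51.Five

variable {F : Type*} [Field F]

/-- numerator of the duplication map `x(P) ↦ x(2P)` -/
def dupN (b4 b6 b8 x : F) : F := x ^ 4 - b4 * x ^ 2 - 2 * b6 * x - b8

/-- denominator of the duplication map `x(P) ↦ x(2P)` -/
def dupD (b2 b4 b6 x : F) : F := 4 * x ^ 3 + b2 * x ^ 2 + 2 * b4 * x + b6

/-- the auxiliary quantity `q = d² - B₄` -/
def qAux (b2 b4 x1 x2 : F) : F := (x2 - x1) ^ 2 - (b4 + x1 * b2 + 6 * x1 ^ 2)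

/-- the discriminant in terms of the `b`-invariants -/
def disc (b2 b4 b6 b8 : F) : F := -b2 ^ 2 * b8 - 8 * b4 ^ 3 - 27 * b6 ^ 2 + 9 * b2 * b4 * b6

/-- the `s`-parameter (Hauptmodul of `X₀(5)`): `s = Δ / (x(2P) - x(P))⁶` -/
noncomputable def sParam (b2 b4 b6 b8 x1 x2 : F) : F := disc b2 b4 b6 b8 / (x2 - x1) ^ 6

theorem sParam_symm (b2 b4 b6 b8 x1 x2 : F) :
    sParam b2 b4 b6 b8 x2 x1 = sParam b2 b4 b6 b8 x1 x2 := by
  unfold sParam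
  congr 1
  ring

section Main

variable (b2 b4 b6 b8 x1 x2 : F)

/-- The structural consequences of the two duplication relations. -/
theorem shifted_relations (hrel : 4 * b8 = b2 * b6 - b4 ^ 2) (hne : x1 ≠ x2)
    (R1 : x2 * dupD b2 b4 b6 x1 = dupN b4 b6 b8 x1)
    (R2 : x1 * dupD b2 b4 b6 x2 = dupN b4 b6 b8 x2) :
    let d := x2 - x1
    let q := qAux b2 b4 x1 x2
    d ≠ 0 ∧ q ≠ 0 ∧
    (b6 + 2 * x1 * b4 + x1 ^ 2 * b2 + 4 * x1 ^ 3) = q * d ∧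
    (b8 + 3 * x1 * b6 + 3 * x1 ^ 2 * b4 + x1 ^ 3 * b2 + 3 * x1 ^ 4) = -(q * d ^ 2) ∧
    (b2 + 12 * x1) * (d * q) = d ^ 4 - 6 * q * d ^ 2 + q ^ 2 := by
  intro d q
  have hd : d ≠ 0 := sub_ne_zero.2 (Ne.symm hne)
  set B2 := b2 + 12 * x1 with hB2
  set B4 := b4 + x1 * b2 + 6 * x1 ^ 2 with hB4
  set B6 := b6 + 2 * x1 * b4 + x1 ^ 2 * b2 + 4 * x1 ^ 3 with hB6
  set B8 := b8 + 3 * x1 * b6 + 3 * x1 ^ 2 * b4 + x1 ^ 3 * b2 + 3 * x1 ^ 4 with hB8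
  have hq : q = d ^ 2 - B4 := rfl
  -- shifted relations
  have S1 : d * B6 = -B8 := by
    have : d * B6 + B8 = x2 * dupD b2 b4 b6 x1 - dupN b4 b6 b8 x1 := by
      simp only [dupD, dupN, hB6, hB8, d]; ring
    rw [R1, sub_self] at this
    linear_combination this
  have S2 : d ^ 4 - B4 * d ^ 2 - 2 * B6 * d - B8 = 0 := by
    have : d ^ 4 - B4 * d ^ 2 - 2 * B6 * d - B8 =
        dupN b4 b6 b8 x2 - x1 * dupD b2 b4 b6 x2 := by
      simp only [dupD, dupN, hB4, hB6, hB8, d]; ring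
    rw [this, R2, sub_self]
  have S3 : 4 * B8 = B2 * B6 - B4 ^ 2 := by
    simp only [hB2, hB4, hB6, hB8]
    linear_combination hrel
  -- consequences
  have hB6' : B6 = q * d := by
    have h1 : d * (d ^ 3 - B4 * d - B6) = 0 := by linear_combination S2 + S1
    have h2 : d ^ 3 - B4 * d - B6 = 0 := (mul_eq_zero.1 h1).resolve_left hd
    rw [hq]; linear_combination -h2
  have hB8' : B8 = -(q * d ^ 2) := by
    rw [← neg_eq_iff_eq_neg] at S1 ⊢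
    rw [← S1, hB6']; ring
  have hB2' : B2 * (d * q) = d ^ 4 - 6 * q * d ^ 2 + q ^ 2 := by
    have hB4' : B4 = d ^ 2 - q := by rw [hq]; ring
    rw [hB6', hB8', hB4'] at S3
    linear_combination -S3
  have hq0 : q ≠ 0 := by
    intro h0
    rw [h0] at hB2'
    have : d ^ 4 = 0 := by linear_combination -hB2'
    exact hd (pow_eq_zero_iff (by norm_num) |>.1 this)
  exact ⟨hd, hq0, hB6', hB8', hB2'⟩

/-- The discriminant in terms of `d` and `q`. -/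
theorem disc_eq (hrel : 4 * b8 = b2 * b6 - b4 ^ 2) (hne : x1 ≠ x2)
    (R1 : x2 * dupD b2 b4 b6 x1 = dupN b4 b6 b8 x1)
    (R2 : x1 * dupD b2 b4 b6 x2 = dupN b4 b6 b8 x2) :
    (x2 - x1) ≠ 0 ∧ qAux b2 b4 x1 x2 ≠ 0 ∧
    sParam b2 b4 b6 b8 x1 x2 =
      (x2 - x1) ^ 2 / qAux b2 b4 x1 x2 - qAux b2 b4 x1 x2 / (x2 - x1) ^ 2 - 11 ∧
    (b2 ^ 2 - 24 * b4) ^ 3 * sParam b2 b4 b6 b8 x1 x2 =
      disc b2 b4 b6 b8 *
        (sParam b2 b4 b6 b8 x1 x2 ^ 2 + 10 * sParam b2 b4 b6 b8 x1 x2 + 5) ^ 3 := by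
  obtain ⟨hd, hq0, hB6, hB8, hB2⟩ := shifted_relations b2 b4 b6 b8 x1 x2 hrel hne R1 R2
  set d := x2 - x1 with hd_def
  set q := qAux b2 b4 x1 x2 with hq_def
  set B2 := b2 + 12 * x1 with hB2_def
  set B4 := b4 + x1 * b2 + 6 * x1 ^ 2 with hB4_def
  set B6 := b6 + 2 * x1 * b4 + x1 ^ 2 * b2 + 4 * x1 ^ 3 with hB6_def
  set B8 := b8 + 3 * x1 * b6 + 3 * x1 ^ 2 * b4 + x1 ^ 3 * b2 + 3 * x1 ^ 4 with hB8_def
  have hB4 : B4 = d ^ 2 - q := by rw [hq_def, qAux]; ring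
  have hc4 : b2 ^ 2 - 24 * b4 = B2 ^ 2 - 24 * B4 := by
    simp only [hB2_def, hB4_def]; ring
  have hΔ : disc b2 b4 b6 b8 =
      -B2 ^ 2 * B8 - 8 * B4 ^ 3 - 27 * B6 ^ 2 + 9 * B2 * B4 * B6 := by
    simp only [disc, hB2_def, hB4_def, hB6_def, hB8_def]
    linear_combination (6 * x1 * b2 + 36 * x1 ^ 2) * hrel
  have hB2' : B2 = (d ^ 4 - 6 * q * d ^ 2 + q ^ 2) / (d * q) := by
    rw [eq_div_iff (mul_ne_zero hd hq0)]; exact hB2
  have hΔ' : disc b2 b4 b6 b8 = d ^ 6 * (d ^ 2 / q - q / d ^ 2 - 11) := by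
    rw [hΔ, hB6, hB8, hB4, hB2']
    field_simp
    ring
  have hs : sParam b2 b4 b6 b8 x1 x2 = d ^ 2 / q - q / d ^ 2 - 11 := by
    unfold sParam
    rw [hΔ', mul_div_assoc, mul_comm, div_mul_cancel₀ _ (pow_ne_zero 6 hd)]
  refine ⟨hd, hq0, hs, ?_⟩
  rw [hs, hc4, hΔ, hB6, hB8, hB4, hB2']
  field_simp
  ring

end Main

end Fermat.Agent.S51.Five
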