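/-
S51 (helper7): the duplication formula on `x`-coordinates, in cleared-denominator form.
-/
import Mathlib
import Fermat.Agent.S51.Five_helper7_Param

set_option autoImplicit false

open WeierstrassCurve WeierstrassCurve.Affine

namespace Fermat.Agent.S51.Five

variable {F : Type*} [Field F] [DecidableEq F] (W : WeierstrassCurve.Affine F)

/-- `(y - negY)² = 4x³ + b₂x² + 2b₄x + b₆` on the curve. -/
theorem sub_negY_sq {x y : F} (h : W.Equation x y) :
    (y - W.negY x y) ^ 2 = dupD W.b₂ W.b₄ W.b₆ x := by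
  rw [Affine.equation_iff] at h
  simp only [Affine.negY, dupD, WeierstrassCurve.b₂, WeierstrassCurve.b₄, WeierstrassCurve.b₆]
  linear_combination 4 * h

/-- The duplication formula: `x(2P) · Dd(x(P)) = Nn(x(P))`. -/
theorem addX_self_mul {x y : F} (h : W.Equation x y) (hy : y ≠ W.negY x y) :
    W.addX x x (W.slope x x y y) * dupD W.b₂ W.b₄ W.b₆ x = dupN W.b₄ W.b₆ W.b₈ x := by
  have hden : y - W.negY x y ≠ 0 := sub_ne_zero.2 hy
  rw [← sub_negY_sq W h, Affine.slope_of_Y_ne rfl hy, Affine.addX]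
  rw [Affine.equation_iff] at h
  field_simp
  simp only [Affine.negY, dupN, WeierstrassCurve.b₂, WeierstrassCurve.b₄, WeierstrassCurve.b₆,
    WeierstrassCurve.b₈]
  linear_combination (-(W.a₁ ^ 2 + 4 * W.a₂ + 8 * x)) * h

end Fermat.Agent.S51.Five
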