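/-
S51 (helper7): points of order 5 on a Weierstrass curve over a field: relations between
`x(P)` and `x(2P)`, and the bound `|E[5]| ≤ 33`.
-/
import Mathlib
import Fermat.Agent.S51.Five_helper7_Param
import Fermat.Agent.S51.Five_helper7_Double

set_option autoImplicit false

open WeierstrassCurve WeierstrassCurve.Affine

namespace Fermat.Agent.S51.Five

section XCoord

variable {F : Type*} [Field F] [DecidableEq F] {W : WeierstrassCurve.Affine F}

/-- the `x`-coordinate of a point (junk value `0` at the point at infinity) -/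
def xc : W.Point → F
  | .zero => 0
  | .some x _ _ => x

omit [DecidableEq F] in
@[simp] theorem xc_some {x y : F} (h : W.Nonsingular x y) : xc (Point.some x y h) = x := rfl

omit [DecidableEq F] in
theorem xc_neg (P : W.Point) : xc (-P) = xc P := by
  cases P with
  | zero => rfl
  | some x y h => rfl

omit [DecidableEq F] in
theorem eq_or_eq_neg_of_xc_eq {P Q : W.Point} (hP : P ≠ 0) (hQ : Q ≠ 0) (h : xc P = xc Q) :
    P = Q ∨ P = -Q := by
  cases P with
  | zero => exact absurd rfl hP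
  | some x₁ y₁ h₁ =>
    cases Q with
    | zero => exact absurd rfl hQ
    | some x₂ y₂ h₂ =>
      exact Point.X_eq_iff.mp h

/-- The duplication formula on `x`-coordinates. -/
theorem xc_two_smul {P : W.Point} (hP : P ≠ 0) (h2 : (2 : ℤ) • P ≠ 0) :
    xc ((2 : ℤ) • P) * dupD W.b₂ W.b₄ W.b₆ (xc P) = dupN W.b₄ W.b₆ W.b₈ (xc P) ∧
      dupD W.b₂ W.b₄ W.b₆ (xc P) ≠ 0 := by
  cases P with
  | zero => exact absurd rfl hP
  | some x y h =>
    rw [two_smul] at h2 ⊢
    have hy : y ≠ W.negY x y := by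
      intro hy
      exact h2 (Point.add_self_of_Y_eq hy)
    rw [Point.add_self_of_Y_ne hy]
    refine ⟨addX_self_mul W h.1 hy, ?_⟩
    rw [xc_some, ← sub_negY_sq W h.1]
    exact pow_ne_zero 2 (sub_ne_zero.2 hy)

end XCoord

section OrderFive

variable {G : Type*} [AddCommGroup G]

theorem two_smul_ne_zero_of_five {P : G} (h5 : (5 : ℤ) • P = 0) (hP : P ≠ 0) :
    (2 : ℤ) • P ≠ 0 := by
  intro h2
  apply hP
  have : P = (5 : ℤ) • P - (2 : ℤ) • ((2 : ℤ) • P) := by
    rw [smul_smul, ← sub_smul]; norm_num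
  rw [this, h5, h2, smul_zero, sub_zero]

theorem four_smul_eq_neg_of_five {P : G} (h5 : (5 : ℤ) • P = 0) :
    (2 : ℤ) • ((2 : ℤ) • P) = -P := by
  rw [smul_smul, eq_neg_iff_add_eq_zero]
  have : (2 * 2 : ℤ) • P + P = (5 : ℤ) • P := by
    rw [show (5 : ℤ) = 2 * 2 + 1 by norm_num, add_smul, one_smul]
  rw [this, h5]

theorem two_smul_ne_self_of_five {P : G} (hP : P ≠ 0) :
    (2 : ℤ) • P ≠ P := by
  intro h
  apply hP
  have : P = (2 : ℤ) • P - P := by rw [two_smul]; abel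
  have h3 : (2 : ℤ) • P - P = 0 := by
    -- `P = 2P` gives `P = 0`
    rw [h, sub_self]
  rw [this, h3]

theorem two_smul_ne_neg_of_five {P : G} (h5 : (5 : ℤ) • P = 0) (hP : P ≠ 0) :
    (2 : ℤ) • P ≠ -P := by
  intro h
  -- `3P = 0` and `5P = 0` give `P = 0`
  have h3 : (3 : ℤ) • P = 0 := by
    have : (3 : ℤ) • P = (2 : ℤ) • P + P := by
      rw [show (3 : ℤ) = 2 + 1 by norm_num, add_smul, one_smul]
    rw [this, h, neg_add_cancel]
  apply hP
  have : P = (2 : ℤ) • ((3 : ℤ) • P) - (5 : ℤ) • P := by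
    rw [smul_smul, ← sub_smul]; norm_num
  rw [this, h3, h5, smul_zero, sub_zero]

end OrderFive

section Relations

variable {F : Type*} [Field F] [DecidableEq F] {W : WeierstrassCurve.Affine F}

/-- The relations between `x₁ = x(P)` and `x₂ = x(2P)` for a point of order 5. -/
theorem order_five_relations {P : W.Point} (hP : P ≠ 0) (h5 : (5 : ℤ) • P = 0) :
    xc P ≠ xc ((2 : ℤ) • P) ∧
    xc ((2 : ℤ) • P) * dupD W.b₂ W.b₄ W.b₆ (xc P) = dupN W.b₄ W.b₆ W.b₈ (xc P) ∧
    xc P * dupD W.b₂ W.b₄ W.b₆ (xc ((2 : ℤ) • P)) = dupN W.b₄ W.b₆ W.b₈ (xc ((2 : ℤ) • P)) ∧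
    dupD W.b₂ W.b₄ W.b₆ (xc P) ≠ 0 := by
  have h2 := two_smul_ne_zero_of_five h5 hP
  have h4 := four_smul_eq_neg_of_five h5
  have h4' : (2 : ℤ) • ((2 : ℤ) • P) ≠ 0 := by
    rw [h4]; exact neg_ne_zero.2 hP
  obtain ⟨R1, hD1⟩ := xc_two_smul hP h2
  obtain ⟨R2, -⟩ := xc_two_smul h2 h4'
  rw [h4, xc_neg] at R2
  refine ⟨?_, R1, R2, hD1⟩
  intro hx
  rcases eq_or_eq_neg_of_xc_eq hP h2 hx with h | h
  · exact two_smul_ne_self_of_five hP h.symm
  · exact two_smul_ne_neg_of_five h5 hP (neg_eq_iff_eq_neg.2 h).symm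

end Relations

section Card

open Polynomial

variable {F : Type*} [Field F]

/-- numerator of the duplication map, as a polynomial -/
noncomputable def NnP (b4 b6 b8 : F) : F[X] := X ^ 4 - C b4 * X ^ 2 - C (2 * b6) * X - C b8

/-- denominator of the duplication map, as a polynomial -/
noncomputable def DdP (b2 b4 b6 : F) : F[X] :=
  C 4 * X ^ 3 + C b2 * X ^ 2 + C (2 * b4) * X + C b6

/-- numerator of `dup (dup x) - x`, a polynomial of degree 16 with leading coefficient `-15` -/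
noncomputable def GP (b2 b4 b6 b8 : F) : F[X] :=
  (NnP b4 b6 b8) ^ 4 - C b4 * (NnP b4 b6 b8) ^ 2 * (DdP b2 b4 b6) ^ 2
    - C (2 * b6) * (NnP b4 b6 b8) * (DdP b2 b4 b6) ^ 3 - C b8 * (DdP b2 b4 b6) ^ 4
    - X * (DdP b2 b4 b6) * (C 4 * (NnP b4 b6 b8) ^ 3 + C b2 * (NnP b4 b6 b8) ^ 2 * (DdP b2 b4 b6)
      + C (2 * b4) * (NnP b4 b6 b8) * (DdP b2 b4 b6) ^ 2 + C b6 * (DdP b2 b4 b6) ^ 3)

theorem natDegree_GP [CharZero F] (b2 b4 b6 b8 : F) : (GP b2 b4 b6 b8).natDegree = 16 := by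
  unfold GP NnP DdP
  compute_degree!

theorem GP_ne_zero [CharZero F] (b2 b4 b6 b8 : F) : GP b2 b4 b6 b8 ≠ 0 := by
  intro h
  have := natDegree_GP b2 b4 b6 b8
  rw [h, natDegree_zero] at this
  exact absurd this (by norm_num)

theorem eval_NnP (b4 b6 b8 x : F) : (NnP b4 b6 b8).eval x = dupN b4 b6 b8 x := by
  simp [NnP, dupN]

theorem eval_DdP (b2 b4 b6 x : F) : (DdP b2 b4 b6).eval x = dupD b2 b4 b6 x := by
  simp [DdP, dupD]

theorem eval_GP_eq_zero (b2 b4 b6 b8 : F) {x1 x2 : F}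
    (R1 : x2 * dupD b2 b4 b6 x1 = dupN b4 b6 b8 x1)
    (R2 : x1 * dupD b2 b4 b6 x2 = dupN b4 b6 b8 x2) : (GP b2 b4 b6 b8).eval x1 = 0 := by
  have h1 : (GP b2 b4 b6 b8).eval x1 =
      dupD b2 b4 b6 x1 ^ 4 * (dupN b4 b6 b8 x2 - x1 * dupD b2 b4 b6 x2) := by
    simp only [GP, eval_sub, eval_mul, eval_pow, eval_add, eval_C, eval_X, eval_NnP, eval_DdP]
    rw [← R1]
    simp only [dupN, dupD]
    ring
  rw [h1, R2, sub_self, mul_zero]

variable [DecidableEq F] [CharZero F] {W : WeierstrassCurve.Affine F}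

/-- The 5-torsion points lie in a finite set of at most 33 elements. -/
theorem exists_finset_five_torsion (W : WeierstrassCurve.Affine F) :
    ∃ S : Finset W.Point, (∀ P : W.Point, (5 : ℤ) • P = 0 → P ∈ S) ∧ S.card ≤ 33 := by
  classical
  set g := GP W.b₂ W.b₄ W.b₆ W.b₈ with hg
  have hg0 : g ≠ 0 := GP_ne_zero _ _ _ _
  set roots := g.roots.toFinset with hroots
  have hrootscard : roots.card ≤ 16 := by
    calc roots.card ≤ Multiset.card g.roots := Multiset.toFinset_card_le _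
      _ ≤ g.natDegree := Polynomial.card_roots' g
      _ = 16 := natDegree_GP _ _ _ _
  let A : F → Finset W.Point := fun x =>
    if h : ∃ P : W.Point, P ≠ 0 ∧ xc P = x then {h.choose, -h.choose} else ∅
  have hA : ∀ x, (A x).card ≤ 2 := by
    intro x
    simp only [A]
    split_ifs with h
    · exact Finset.card_le_two
    · simp
  refine ⟨insert 0 (roots.biUnion A), fun P h5 => ?_, ?_⟩
  · by_cases hP : P = 0
    · rw [hP]; exact Finset.mem_insert_self _ _
    · apply Finset.mem_insert_of_mem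
      obtain ⟨-, R1, R2, -⟩ := order_five_relations hP h5
      have hroot : xc P ∈ roots := by
        rw [hroots, Multiset.mem_toFinset, Polynomial.mem_roots hg0]
        exact eval_GP_eq_zero _ _ _ _ R1 R2
      rw [Finset.mem_biUnion]
      refine ⟨xc P, hroot, ?_⟩
      have hex : ∃ Q : W.Point, Q ≠ 0 ∧ xc Q = xc P := ⟨P, hP, rfl⟩
      simp only [A]
      rw [dif_pos hex]
      obtain ⟨hQ0, hQx⟩ := hex.choose_spec
      rcases eq_or_eq_neg_of_xc_eq hP hQ0 hQx.symm with h | h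
      · rw [Finset.mem_insert]; exact Or.inl h
      · rw [Finset.mem_insert, Finset.mem_singleton]; exact Or.inr h
  · calc (insert 0 (roots.biUnion A)).card ≤ (roots.biUnion A).card + 1 := Finset.card_insert_le _ _
      _ ≤ (∑ x ∈ roots, (A x).card) + 1 := Nat.add_le_add_right Finset.card_biUnion_le 1
      _ ≤ (∑ _x ∈ roots, 2) + 1 := Nat.add_le_add_right (Finset.sum_le_sum fun x _ => hA x) 1
      _ = roots.card * 2 + 1 := by rw [Finset.sum_const, smul_eq_mul]
      _ ≤ 33 := by omega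

end Card

section LinAlg

/-- In an `𝔽₅`-vector space with at most 33 elements, every proper nonzero subspace is a line. -/
theorem exists_smul_eq_of_card_le {V : Type*} [AddCommGroup V] [Module (ZMod 5) V] [Finite V]
    (hcard : Nat.card V ≤ 33) (N : Submodule (ZMod 5) V) (hbot : N ≠ ⊥) (htop : N ≠ ⊤)
    {P : V} (hPN : P ∈ N) (hP : P ≠ 0) {Q : V} (hQ : Q ∈ N) : ∃ c : ZMod 5, Q = c • P := by
  haveI : Fact (Nat.Prime 5) := ⟨by norm_num⟩
  have h1 : Nat.card V = 5 ^ Module.finrank (ZMod 5) V := by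
    rw [Module.natCard_eq_pow_finrank (K := ZMod 5) (V := V), Nat.card_zmod]
  have h2 : Module.finrank (ZMod 5) V ≤ 2 := by
    by_contra hlt
    push Not at hlt
    have : 5 ^ 3 ≤ 5 ^ Module.finrank (ZMod 5) V := Nat.pow_le_pow_right (by norm_num) hlt
    rw [← h1] at this
    omega
  have h3 : Module.finrank (ZMod 5) N < Module.finrank (ZMod 5) V :=
    Submodule.finrank_lt htop
  have h4 : Module.finrank (ZMod 5) N ≠ 0 := by
    intro h0
    exact hbot (Submodule.finrank_eq_zero.1 h0)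
  have h5 : Module.finrank (ZMod 5) N = 1 := by omega
  have hP' : (⟨P, hPN⟩ : N) ≠ 0 := fun h => hP (congrArg Subtype.val h)
  obtain ⟨c, hc⟩ := (finrank_eq_one_iff_of_nonzero' (⟨P, hPN⟩ : N) hP').1 h5 ⟨Q, hQ⟩
  exact ⟨c, (congrArg Subtype.val hc).symm⟩

end LinAlg

end Fermat.Agent.S51.Five
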