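/-
S51 (helper7), package (P1b): a reducible mod-5 representation gives `Cond5`.
-/
import Mathlib
import Fermat.Prelude.Def_FLTPrelim_GaloisRep
import Fermat.Prelude.Def_FLTPrelim_ModularRep
import Fermat.Agent.S51.Param
import Fermat.Agent.S51.Five_helper7_Torsion

set_option autoImplicit false

open WeierstrassCurve WeierstrassCurve.Affine WeierstrassCurve.Affine.Point

namespace Fermat.Agent.S51.Five

/-- the algebraic closure of `ℚ` -/
local notation "Qbar" => AlgebraicClosure ℚ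

section Galois

variable (E : WeierstrassCurve.Affine ℚ)

/-- The Galois action on points acts on `x`-coordinates. -/
theorem xc_smul (σ : Qbar ≃ₐ[ℚ] Qbar) (P : (E⁄Qbar).Point) : xc (σ • P) = σ (xc P) := by
  cases P with
  | zero =>
    have h0 : σ • (Point.zero : (E⁄Qbar).Point) = Point.zero := rfl
    rw [h0]
    exact (map_zero σ).symm
  | some x y h => rfl

/-- An element of `Qbar` fixed by the whole Galois group is rational. -/
theorem exists_rat_of_fixed (x : Qbar) (h : ∀ σ : Qbar ≃ₐ[ℚ] Qbar, σ x = x) :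
    ∃ q : ℚ, algebraMap ℚ Qbar q = x := by
  have e : (AlgebraicClosure.instAlgebra ℚ : Algebra ℚ Qbar) = DivisionRing.toRatAlgebra :=
    Subsingleton.elim _ _
  have h' : @Algebra.IsAlgebraic ℚ Qbar _ _ (AlgebraicClosure.instAlgebra ℚ) :=
    AlgebraicClosure.isAlgebraic ℚ
  haveI : Algebra.IsAlgebraic ℚ Qbar := e ▸ h'
  haveI : IsAlgClosure ℚ Qbar := ⟨inferInstance, inferInstance⟩
  haveI : IsGalois ℚ Qbar := IsAlgClosure.isGalois ℚ Qbar
  have := (InfiniteGalois.mem_bot_iff_fixed (k := ℚ) (K := Qbar) x).2 h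
  exact IntermediateField.mem_bot.1 this

end Galois

section GroupCases

variable {G : Type*} [AddCommGroup G]

theorem zsmul_eq_of_modEq {P : G} (h5 : (5 : ℤ) • P = 0) {a b : ℤ} (hab : a ≡ b [ZMOD 5]) :
    a • P = b • P := by
  obtain ⟨k, hk⟩ := (Int.modEq_iff_dvd.1 hab.symm)
  have : a = b + 5 * k := by linarith
  rw [this, add_smul, mul_smul, smul_comm, h5, smul_zero, add_zero]

/-- The nonzero multiples of a point of order 5, together with their doubles. -/
theorem smul_cases {P Q : G} (h5 : (5 : ℤ) • P = 0) (m : ℕ) (hm : m < 5) (hm0 : m ≠ 0)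
    (hQ : Q = m • P) :
    ((Q = P ∨ Q = -P) ∧ ((2 : ℤ) • Q = (2 : ℤ) • P ∨ (2 : ℤ) • Q = -((2 : ℤ) • P))) ∨
    ((Q = (2 : ℤ) • P ∨ Q = -((2 : ℤ) • P)) ∧ ((2 : ℤ) • Q = P ∨ (2 : ℤ) • Q = -P)) := by
  have hQ' : Q = (m : ℤ) • P := by rw [hQ, natCast_zsmul]
  have key : ∀ a b : ℤ, a ≡ b [ZMOD 5] → a • P = b • P := fun a b h => zsmul_eq_of_modEq h5 h
  interval_cases m
  · exact absurd rfl hm0
  · left
    have h1 : Q = P := by rw [hQ']; simp
    exact ⟨Or.inl h1, Or.inl (by rw [h1])⟩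
  · right
    have h1 : Q = (2 : ℤ) • P := by rw [hQ']; rfl
    refine ⟨Or.inl h1, Or.inr ?_⟩
    rw [h1, smul_smul, ← neg_one_smul ℤ P]
    exact key _ _ (by decide)
  · right
    have h1 : Q = -((2 : ℤ) • P) := by
      rw [hQ', ← neg_smul]
      exact key _ _ (by decide)
    refine ⟨Or.inr h1, Or.inl ?_⟩
    rw [h1, ← neg_smul, smul_smul]
    conv_rhs => rw [← one_smul ℤ P]
    exact key _ _ (by decide)
  · left
    have h1 : Q = -P := by
      rw [hQ', ← neg_one_smul ℤ P]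
      exact key _ _ (by decide)
    refine ⟨Or.inr h1, Or.inr ?_⟩
    rw [h1, smul_neg]

end GroupCases

section Algebra

variable {F : Type*} [Field F]

/-- From the two duplication relations to the two equations of `Cond5` (over any field of
characteristic `≠ 2`). -/
theorem cond5_equations (b2 b4 b6 b8 x1 x2 : F) (h2 : (2 : F) ≠ 0) (hne : x1 ≠ x2)
    (R1 : x2 * dupD b2 b4 b6 x1 = dupN b4 b6 b8 x1)
    (R2 : x1 * dupD b2 b4 b6 x2 = dupN b4 b6 b8 x2) :
    let r := (x1 + x2) / 2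
    let d := (x1 - x2) ^ 2 / 4
    (b6 + 2 * r * b4 + r ^ 2 * b2 + 4 * r ^ 3 = (b2 + 12 * r) * d) ∧
    (b8 + 3 * r * b6 + 3 * r ^ 2 * b4 + r ^ 3 * b2 + 3 * r ^ 4 =
      5 * d ^ 2 + (b4 + r * b2 + 6 * r ^ 2) * d) := by
  intro r d
  have h4 : (4 : F) ≠ 0 := by
    have : (4 : F) = 2 * 2 := by norm_num
    rw [this]; exact mul_ne_zero h2 h2
  have hw : x1 - x2 ≠ 0 := sub_ne_zero.2 hne
  have hx1 : x1 = r + (x1 - x2) / 2 := by simp only [r]; field_simp; ring
  have hx2 : x2 = r - (x1 - x2) / 2 := by simp only [r]; field_simp; ring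
  have hd : d = ((x1 - x2) / 2) ^ 2 := by simp only [d]; field_simp; norm_num
  set w := (x1 - x2) / 2 with hw_def
  have hw0 : w ≠ 0 := div_ne_zero hw h2
  rw [hd]
  simp only [dupD, dupN] at R1 R2
  rw [hx1, hx2] at R1 R2
  constructor
  · have : (2 * w) * ((b6 + 2 * r * b4 + r ^ 2 * b2 + 4 * r ^ 3) - (b2 + 12 * r) * w ^ 2) = 0 := by
      linear_combination R1 - R2
    have h3 := (mul_eq_zero.1 this).resolve_left (mul_ne_zero h2 hw0)
    exact sub_eq_zero.1 h3
  · have : (2 : F) * ((b8 + 3 * r * b6 + 3 * r ^ 2 * b4 + r ^ 3 * b2 + 3 * r ^ 4) -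
        (5 * (w ^ 2) ^ 2 + (b4 + r * b2 + 6 * r ^ 2) * w ^ 2)) = 0 := by
      linear_combination R1 + R2
    have h3 := (mul_eq_zero.1 this).resolve_left h2
    exact sub_eq_zero.1 h3

end Algebra

section Main

variable (E : WeierstrassCurve ℚ)

/-- (P1b), modulo the existence of a point of order 5: a reducible mod-5 representation gives a
rational cyclic subgroup of order 5 in the coordinate form `Cond5`. -/
theorem cond5_of_not_galoisRepIsIrreducible
    (hD : ∃ P : ((E : WeierstrassCurve.Affine ℚ)⁄Qbar).Point, P ≠ 0 ∧ (5 : ℤ) • P = 0)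
    (h : ¬ GaloisRepIsIrreducible (K := Qbar) ℚ (E : WeierstrassCurve.Affine ℚ) 5) :
    Cond5 E := by
  classical
  unfold GaloisRepIsIrreducible at h
  have hmem : ∀ P : ((E : WeierstrassCurve.Affine ℚ)⁄Qbar).Point,
      P ∈ Submodule.torsionBy ℤ ((E : WeierstrassCurve.Affine ℚ)⁄Qbar).Point ((5 : ℕ) : ℤ) ↔
        (5 : ℤ) • P = 0 := by
    intro P
    rw [Submodule.mem_torsionBy_iff]
    norm_num
  -- nontriviality
  have hnt : Nontrivial (Submodule.torsionBy ℤ
      ((E : WeierstrassCurve.Affine ℚ)⁄Qbar).Point ((5 : ℕ) : ℤ)) := by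
    obtain ⟨P, hP, h5⟩ := hD
    exact ⟨⟨⟨P, (hmem P).2 h5⟩, 0, fun h => hP (congrArg Subtype.val h)⟩⟩
  -- a proper nonzero stable submodule
  obtain ⟨N, hstab, hbot, htop⟩ : ∃ N : Submodule (ZMod 5) (Submodule.torsionBy ℤ
      ((E : WeierstrassCurve.Affine ℚ)⁄Qbar).Point ((5 : ℕ) : ℤ)),
      IsGaloisStable ℚ N ∧ N ≠ ⊥ ∧ N ≠ ⊤ := by
    by_contra hno
    push Not at hno
    apply h
    refine ⟨hnt, fun N hN => ?_⟩
    by_contra hb
    push Not at hb
    exact hb.2 (hno N hN hb.1)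
  -- finiteness
  obtain ⟨S, hS, hScard⟩ := exists_finset_five_torsion ((E : WeierstrassCurve.Affine ℚ)⁄Qbar)
  let ι : (Submodule.torsionBy ℤ ((E : WeierstrassCurve.Affine ℚ)⁄Qbar).Point ((5 : ℕ) : ℤ)) →
      {x // x ∈ S} :=
    fun P => ⟨P.1, hS P.1 ((hmem _).1 P.2)⟩
  have hι : Function.Injective ι := by
    intro P Q h
    have h' := congrArg (fun s : {x // x ∈ S} => s.1) h
    exact Subtype.ext h'
  haveI hfin : Finite (Submodule.torsionBy ℤ
      ((E : WeierstrassCurve.Affine ℚ)⁄Qbar).Point ((5 : ℕ) : ℤ)) := Finite.of_injective ι hι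
  have hcard : Nat.card (Submodule.torsionBy ℤ
      ((E : WeierstrassCurve.Affine ℚ)⁄Qbar).Point ((5 : ℕ) : ℤ)) ≤ 33 := by
    refine le_trans (Nat.card_le_card_of_injective ι hι) ?_
    rw [Nat.card_eq_fintype_card, Fintype.card_coe]
    exact hScard
  -- a nonzero point of `N`
  obtain ⟨P, hPN, hP0⟩ := Submodule.exists_mem_ne_zero_of_ne_bot hbot
  have hP0' : (P : ((E : WeierstrassCurve.Affine ℚ)⁄Qbar).Point) ≠ 0 :=
    fun h0 => hP0 (Subtype.ext h0)
  have h5 : (5 : ℤ) • (P : ((E : WeierstrassCurve.Affine ℚ)⁄Qbar).Point) = 0 := (hmem _).1 P.2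
  obtain ⟨hne, R1, R2, -⟩ := order_five_relations hP0' h5
  -- the Galois group permutes `{x₁, x₂}`
  have hperm : ∀ σ : Qbar ≃ₐ[ℚ] Qbar,
      (σ (xc (P : ((E : WeierstrassCurve.Affine ℚ)⁄Qbar).Point)) =
          xc (P : ((E : WeierstrassCurve.Affine ℚ)⁄Qbar).Point) ∧
        σ (xc ((2 : ℤ) • (P : ((E : WeierstrassCurve.Affine ℚ)⁄Qbar).Point))) =
          xc ((2 : ℤ) • (P : ((E : WeierstrassCurve.Affine ℚ)⁄Qbar).Point))) ∨
      (σ (xc (P : ((E : WeierstrassCurve.Affine ℚ)⁄Qbar).Point)) =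
          xc ((2 : ℤ) • (P : ((E : WeierstrassCurve.Affine ℚ)⁄Qbar).Point)) ∧
        σ (xc ((2 : ℤ) • (P : ((E : WeierstrassCurve.Affine ℚ)⁄Qbar).Point))) =
          xc (P : ((E : WeierstrassCurve.Affine ℚ)⁄Qbar).Point)) := by
    intro σ
    have hσN : σ • P ∈ N := hstab σ P hPN
    obtain ⟨c, hc⟩ := exists_smul_eq_of_card_le hcard N hbot htop hPN hP0 hσN
    -- rewrite `c • P` as a natural multiple
    have hc' : σ • (P : ((E : WeierstrassCurve.Affine ℚ)⁄Qbar).Point) =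
        c.val • (P : ((E : WeierstrassCurve.Affine ℚ)⁄Qbar).Point) := by
      have h1 : c • P = c.val • P := by
        conv_lhs => rw [← ZMod.natCast_zmod_val c]
        exact Nat.cast_smul_eq_nsmul (ZMod 5) c.val P
      calc σ • (P : ((E : WeierstrassCurve.Affine ℚ)⁄Qbar).Point)
          = ((σ • P : Submodule.torsionBy ℤ ((E : WeierstrassCurve.Affine ℚ)⁄Qbar).Point
              ((5 : ℕ) : ℤ)) : ((E : WeierstrassCurve.Affine ℚ)⁄Qbar).Point) := rfl
        _ = ((c.val • P : Submodule.torsionBy ℤ ((E : WeierstrassCurve.Affine ℚ)⁄Qbar).Point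
              ((5 : ℕ) : ℤ)) : ((E : WeierstrassCurve.Affine ℚ)⁄Qbar).Point) := by rw [hc, h1]
        _ = c.val • (P : ((E : WeierstrassCurve.Affine ℚ)⁄Qbar).Point) := by simp
    have hval : c.val < 5 := ZMod.val_lt c
    have hval0 : c.val ≠ 0 := by
      intro h0
      rw [h0, zero_nsmul] at hc'
      exact hP0' ((smul_eq_zero_iff_eq σ).1 hc')
    have hx1 := xc_smul (E : WeierstrassCurve.Affine ℚ) σ
      (P : ((E : WeierstrassCurve.Affine ℚ)⁄Qbar).Point)
    have hx2 := xc_smul (E : WeierstrassCurve.Affine ℚ) σ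
      ((2 : ℤ) • (P : ((E : WeierstrassCurve.Affine ℚ)⁄Qbar).Point))
    rw [algEquiv_smul_zsmul] at hx2
    rcases smul_cases h5 c.val hval hval0 hc' with ⟨hQ, h2Q⟩ | ⟨hQ, h2Q⟩
    · left
      constructor
      · rw [← hx1]
        rcases hQ with hQ | hQ
        · rw [hQ]
        · rw [hQ, xc_neg]
      · rw [← hx2]
        rcases h2Q with hQ | hQ
        · rw [hQ]
        · rw [hQ, xc_neg]
    · right
      constructor
      · rw [← hx1]
        rcases hQ with hQ | hQ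
        · rw [hQ]
        · rw [hQ, xc_neg]
      · rw [← hx2]
        rcases h2Q with hQ | hQ
        · rw [hQ]
        · rw [hQ, xc_neg]
  set x1 := xc (P : ((E : WeierstrassCurve.Affine ℚ)⁄Qbar).Point) with hx1_def
  set x2 := xc ((2 : ℤ) • (P : ((E : WeierstrassCurve.Affine ℚ)⁄Qbar).Point)) with hx2_def
  -- the symmetric functions are rational
  obtain ⟨u0, hu0⟩ := exists_rat_of_fixed (x1 + x2) (fun σ => by
    rcases hperm σ with ⟨h1, h2⟩ | ⟨h1, h2⟩
    · rw [map_add, h1, h2]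
    · rw [map_add, h1, h2, add_comm])
  obtain ⟨v0, hv0⟩ := exists_rat_of_fixed ((x1 - x2) ^ 2) (fun σ => by
    rcases hperm σ with ⟨h1, h2⟩ | ⟨h1, h2⟩
    · rw [map_pow, map_sub, h1, h2]
    · rw [map_pow, map_sub, h1, h2]; ring)
  -- the equations over `Qbar`
  have hb2 : ((E : WeierstrassCurve.Affine ℚ)⁄Qbar).b₂ = algebraMap ℚ Qbar E.b₂ :=
    WeierstrassCurve.map_b₂ E (algebraMap ℚ Qbar)
  have hb4 : ((E : WeierstrassCurve.Affine ℚ)⁄Qbar).b₄ = algebraMap ℚ Qbar E.b₄ :=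
    WeierstrassCurve.map_b₄ E (algebraMap ℚ Qbar)
  have hb6 : ((E : WeierstrassCurve.Affine ℚ)⁄Qbar).b₆ = algebraMap ℚ Qbar E.b₆ :=
    WeierstrassCurve.map_b₆ E (algebraMap ℚ Qbar)
  have hb8 : ((E : WeierstrassCurve.Affine ℚ)⁄Qbar).b₈ = algebraMap ℚ Qbar E.b₈ :=
    WeierstrassCurve.map_b₈ E (algebraMap ℚ Qbar)
  rw [hb2, hb4, hb6, hb8] at R1 R2
  obtain ⟨e1, e2⟩ := cond5_equations _ _ _ _ x1 x2 (two_ne_zero) hne R1 R2
  refine ⟨u0 / 2, v0 / 4, ?_, ?_⟩
  · apply (algebraMap ℚ Qbar).injective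
    simp only [tb6, tb2, map_add, map_mul, map_pow, map_div₀, hu0, hv0, map_ofNat]
    exact e1
  · apply (algebraMap ℚ Qbar).injective
    simp only [tb8, tb4, map_add, map_mul, map_pow, map_div₀, hu0, hv0, map_ofNat]
    exact e2

/-- (P1b) for an integral model, modulo the existence of a point of order 5. -/
theorem cond5_of_not_modRepIsIrreducible (W : WeierstrassCurve ℤ)
    (hD : ∃ P : ((W.map (Int.castRingHom ℚ) : WeierstrassCurve.Affine ℚ)⁄Qbar).Point,
      P ≠ 0 ∧ (5 : ℤ) • P = 0)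
    (h : ¬ W.ModRepIsIrreducible 5) : Cond5 (W.map (Int.castRingHom ℚ)) :=
  cond5_of_not_galoisRepIsIrreducible (W.map (Int.castRingHom ℚ)) hD h

end Main

end Fermat.Agent.S51.Five
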