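/-
S51 (helper7), package (P1b), final form: for an integral Weierstrass model `W` with `Δ ≠ 0`,
a reducible mod-5 representation gives `Cond5` for the rational curve.
Combines `Five_helper7_Main` (P1b modulo nontriviality) with helper3's (D)
`exists_point_order_five`.
-/
import Mathlib
import Fermat.Agent.S51.Five_helper7_Main
import Fermat.Agent.S51.Five_helper3_Nontrivial

set_option autoImplicit false

namespace Fermat.Agent.S51

/-- the discriminant of the rational curve attached to an integral model is nonzero -/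
theorem map_castRingHom_Δ_ne_zero (W : WeierstrassCurve ℤ) (hΔ : W.Δ ≠ 0) :
    (W.map (Int.castRingHom ℚ)).Δ ≠ 0 := by
  rw [WeierstrassCurve.map_Δ]
  exact (map_ne_zero_iff (Int.castRingHom ℚ) Int.cast_injective).mpr hΔ

/-- **(P1b)** for a rational curve with nonzero discriminant. -/
theorem cond5_of_not_galoisRepIsIrreducible (E : WeierstrassCurve ℚ) (hΔ : E.Δ ≠ 0)
    (h : ¬ WeierstrassCurve.Affine.Point.GaloisRepIsIrreducible (K := AlgebraicClosure ℚ) ℚ
      (E : WeierstrassCurve.Affine ℚ) 5) : Cond5 E :=
  Five.cond5_of_not_galoisRepIsIrreducible E (exists_point_order_five E hΔ) h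

/-- **(P1b)** `¬ W.ModRepIsIrreducible 5 → Cond5 (W.map (Int.castRingHom ℚ))`. -/
theorem cond5_of_not_modRepIsIrreducible (W : WeierstrassCurve ℤ) (hΔ : W.Δ ≠ 0)
    (h : ¬ W.ModRepIsIrreducible 5) : Cond5 (W.map (Int.castRingHom ℚ)) :=
  Five.cond5_of_not_modRepIsIrreducible W
    (exists_point_order_five _ (map_castRingHom_Δ_ne_zero W hΔ)) h

end Fermat.Agent.S51
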