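import Mathlib
import Fermat.Prelude.Def_FLTPrelim_ModularRep
import Fermat.Agent.S51.Count

set_option autoImplicit false
set_option linter.unusedSectionVars false

namespace Fermat.Agent.S51

open WeierstrassCurve WeierstrassCurve.Affine

/-- the algebraic closure of `ℚ` used by the Prelude -/
abbrev Kbar : Type := AlgebraicClosure ℚ

theorem isGalois_Kbar : IsGalois ℚ Kbar := by
  have e : (AlgebraicClosure.instAlgebra ℚ : Algebra ℚ (AlgebraicClosure ℚ)) =
      DivisionRing.toRatAlgebra := Subsingleton.elim _ _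
  have h : @IsGalois ℚ _ (AlgebraicClosure ℚ) _ (AlgebraicClosure.instAlgebra ℚ) :=
    @IsAlgClosure.isGalois ℚ (AlgebraicClosure ℚ) _ _ (AlgebraicClosure.instAlgebra ℚ) _ _
  exact e ▸ h

section Galois

variable (E : WeierstrassCurve ℚ)

/-- The Galois action on points acts on `x`-coordinates through the Galois action on `Kbar`. -/
theorem xOf_galois_smul (σ : Kbar ≃ₐ[ℚ] Kbar) (P : (E⁄Kbar).Point) :
    xOf (σ • P) = σ (xOf P) := by
  rw [Point.algEquiv_smul_def]
  cases P with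
  | zero => simp [xOf, Point.map]
  | some x y h => rfl

theorem galois_smul_eq_zero_iff (σ : Kbar ≃ₐ[ℚ] Kbar) (P : (E⁄Kbar).Point) :
    σ • P = 0 ↔ P = 0 := by
  rw [Point.algEquiv_smul_def]
  constructor
  · intro h
    exact Point.map_injective σ.toAlgHom (h.trans (Point.map_zero σ.toAlgHom).symm)
  · rintro rfl
    exact Point.map_zero σ.toAlgHom

/-- A Galois-fixed element of `Kbar` is rational. -/
theorem exists_rat_of_fixed (x : Kbar) (h : ∀ σ : Kbar ≃ₐ[ℚ] Kbar, σ x = x) :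
    ∃ q : ℚ, algebraMap ℚ Kbar q = x :=
  haveI := isGalois_Kbar
  (InfiniteGalois.mem_range_algebraMap_iff_fixed (k := ℚ) (K := Kbar) x).mpr h

end Galois


section Bridge

variable (E : WeierstrassCurve ℚ)

theorem coe_zmod_smul {p : ℕ} [NeZero p] (c : ZMod p)
    (x : Submodule.torsionBy ℤ (E⁄Kbar).Point p) :
    ((c • x : Submodule.torsionBy ℤ (E⁄Kbar).Point p) : (E⁄Kbar).Point) =
      c.val • (x : (E⁄Kbar).Point) := by
  conv_lhs => rw [← ZMod.natCast_zmod_val c, Nat.cast_smul_eq_nsmul]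
  exact Submodule.coe_smul_of_tower (c.val) x

theorem coe_galois_smul {p : ℕ} (σ : Kbar ≃ₐ[ℚ] Kbar)
    (x : Submodule.torsionBy ℤ (E⁄Kbar).Point p) :
    ((σ • x : Submodule.torsionBy ℤ (E⁄Kbar).Point p) : (E⁄Kbar).Point) =
      σ • (x : (E⁄Kbar).Point) := rfl

/-- A Galois-stable proper nonzero submodule of `E[p]` is a line `{kP}` (provided
`|E[p]| < p³`), generated by a point `P` with `σ P ∈ {kP}` for all `σ`. -/
theorem exists_generator_of_stable {p : ℕ} [Fact p.Prime]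
    (hfin : Finite (Submodule.torsionBy ℤ (E⁄Kbar).Point p))
    (hcard : Nat.card (Submodule.torsionBy ℤ (E⁄Kbar).Point p) < p ^ 3)
    (N : Submodule (ZMod p) (Submodule.torsionBy ℤ (E⁄Kbar).Point p))
    (hN : Point.IsGaloisStable ℚ N) (hbot : N ≠ ⊥) (htop : N ≠ ⊤) :
    ∃ P : (E⁄Kbar).Point, P ≠ 0 ∧ p • P = 0 ∧
      ∀ σ : Kbar ≃ₐ[ℚ] Kbar, ∃ k : ℕ, σ • P = k • P := by
  have : NeZero p := ⟨(Fact.out : p.Prime).ne_zero⟩
  obtain ⟨x, hxN, hx0⟩ := Submodule.exists_mem_ne_zero_of_ne_bot hbot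
  refine ⟨x, fun h => hx0 (Subtype.ext h), mem_torsionBy_iff_nsmul.mp x.2, fun σ => ?_⟩
  obtain ⟨c, hc⟩ := exists_smul_eq_of_proper hcard N hbot htop hxN hx0 (hN σ x hxN)
  refine ⟨c.val, ?_⟩
  rw [← coe_galois_smul, hc, coe_zmod_smul]

end Bridge

end Fermat.Agent.S51
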