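import Mathlib
import Fermat.Prelude.Def_FLTPrelim_ModularRep
import Fermat.Agent.S51.Galois_helper4
import Fermat.Agent.S51.Param

set_option autoImplicit false
set_option linter.unusedSectionVars false

namespace Fermat.Agent.S51

open WeierstrassCurve WeierstrassCurve.Affine Polynomial

section BaseChange

variable (E : WeierstrassCurve ℚ)

theorem psi3_baseChange (q : ℚ) :
    psi3 (E.baseChange Kbar) (algebraMap ℚ Kbar q) = algebraMap ℚ Kbar (psi3 E q) := by
  simp only [psi3, WeierstrassCurve.baseChange, map_b₂, map_b₄, map_b₆, map_b₈, map_add, map_mul,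
    map_pow, map_ofNat]

theorem dF_baseChange (q : ℚ) :
    dF (E.baseChange Kbar) (algebraMap ℚ Kbar q) = algebraMap ℚ Kbar (dF E q) := by
  simp only [dF, WeierstrassCurve.baseChange, map_b₂, map_b₄, map_b₆, map_add, map_mul,
    map_pow, map_ofNat]

theorem dN_baseChange (q : ℚ) :
    dN (E.baseChange Kbar) (algebraMap ℚ Kbar q) = algebraMap ℚ Kbar (dN E q) := by
  simp only [dN, WeierstrassCurve.baseChange, map_b₄, map_b₆, map_b₈, map_sub, map_mul,
    map_pow, map_ofNat]

theorem Δ_baseChange_ne_zero (hΔ : E.Δ ≠ 0) : (E.baseChange Kbar).Δ ≠ 0 := by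
  rw [WeierstrassCurve.baseChange, map_Δ]
  exact (map_ne_zero_iff _ (algebraMap ℚ Kbar).injective).mpr hΔ

theorem psi3_eq_tb8 (q : ℚ) : psi3 E q = tb8 E q := by
  simp only [psi3, tb8]; ring

/-- Over the algebraic closure every `x` is the `x`-coordinate of a point. -/
theorem exists_point_of_x (hΔ : E.Δ ≠ 0) (x : Kbar) :
    ∃ P : (E⁄Kbar).Point, P ≠ 0 ∧ xOf P = x := by
  obtain ⟨y, hy⟩ := IsAlgClosed.exists_root (quadY (E.baseChange Kbar) x) (by
    rw [degree_eq_natDegree (quadY_ne_zero x), natDegree_quadY]; norm_num)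
  have heq : (E⁄Kbar).Equation x y := by
    rw [Affine.equation_iff]
    simp only [quadY, IsRoot.def, eval_sub, eval_add, eval_pow, eval_X, eval_mul, eval_C] at hy
    linear_combination hy
  have hns : (E⁄Kbar).Nonsingular x y :=
    ((E⁄Kbar).equation_iff_nonsingular_of_Δ_ne_zero (Δ_baseChange_ne_zero E hΔ)).mp heq
  exact ⟨Point.some x y hns, Point.some_ne_zero _, rfl⟩

/-- `E[3]` is nontrivial over the algebraic closure. -/
theorem nontrivial_torsion_three (hΔ : E.Δ ≠ 0) :
    Nontrivial (Submodule.torsionBy ℤ (E⁄Kbar).Point (3 : ℕ)) := by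
  obtain ⟨x, hx⟩ := IsAlgClosed.exists_root (psi3Poly (E.baseChange Kbar)) (by
    rw [degree_eq_natDegree psi3Poly_ne_zero, natDegree_psi3Poly]; norm_num)
  rw [IsRoot.def, eval_psi3Poly] at hx
  obtain ⟨P, hP0, hPx⟩ := exists_point_of_x E hΔ x
  have h3 : (3 : ℕ) • P = 0 :=
    three_nsmul_eq_zero_of_psi3 (two_ne_zero) hP0 (by rw [hPx]; exact hx)
  refine ⟨⟨⟨P, mem_torsionBy_iff_nsmul.mpr h3⟩, 0, fun h => hP0 ?_⟩⟩
  exact congrArg Subtype.val h

end BaseChange


section Main3

variable (E : WeierstrassCurve ℚ)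

/-- If `3 P = 0` then `k • P ∈ {0, P, -P}`. -/
theorem nsmul_cases_three {P : (E⁄Kbar).Point} (h3 : (3 : ℕ) • P = 0) (k : ℕ) :
    k • P = 0 ∨ k • P = P ∨ k • P = -P := by
  have hk : k • P = (k % 3) • P := by
    conv_lhs => rw [← Nat.div_add_mod k 3, add_nsmul, mul_nsmul, h3, nsmul_zero, zero_add]
  have hlt : k % 3 < 3 := Nat.mod_lt _ (by norm_num)
  rw [hk]
  interval_cases (k % 3)
  · left; exact zero_nsmul P
  · right; left; exact one_nsmul P
  · right; right
    have : (3 : ℕ) • P = (2 : ℕ) • P + P := by rw [succ_nsmul]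
    rw [h3] at this
    exact eq_neg_of_add_eq_zero_left this.symm

/-- `(P1a)`: if the mod-`3` representation of `E` is not irreducible, `ψ₃` has a rational root. -/
theorem cond3_of_not_irreducible (hΔ : E.Δ ≠ 0)
    (h : ¬ Point.GaloisRepIsIrreducible (K := Kbar) ℚ E 3) : Cond3 E := by
  have : Fact (Nat.Prime 3) := ⟨Nat.prime_three⟩
  have hnt := nontrivial_torsion_three E hΔ
  obtain ⟨hfin, hcard⟩ := torsion_three_card (W := E.baseChange Kbar)
  rw [Point.GaloisRepIsIrreducible, not_and] at h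
  have h' := h hnt
  push Not at h'
  obtain ⟨N, hN, hbot, htop⟩ := h'
  obtain ⟨P, hP0, h3, hσ⟩ := exists_generator_of_stable E hfin
    (lt_of_le_of_lt hcard (by norm_num)) N hN hbot htop
  have hfix : ∀ σ : Kbar ≃ₐ[ℚ] Kbar, σ (xOf P) = xOf P := by
    intro σ
    obtain ⟨k, hk⟩ := hσ σ
    rw [← xOf_galois_smul]
    rcases nsmul_cases_three E h3 k with h0 | h1 | h2
    · exfalso
      rw [h0] at hk
      exact hP0 ((galois_smul_eq_zero_iff E σ P).mp hk)
    · rw [hk, h1]
    · rw [hk, h2, xOf_neg]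
  obtain ⟨q, hq⟩ := exists_rat_of_fixed (xOf P) hfix
  refine ⟨q, ?_⟩
  have hpsi := psi3_xOf_eq_zero hP0 h3
  rw [← hq, psi3_baseChange, map_eq_zero] at hpsi
  rw [← psi3_eq_tb8]
  exact hpsi

/-- `(P1a)` for an integral model. -/
theorem cond3_of_not_modRepIsIrreducible (W : WeierstrassCurve ℤ) (hΔ : W.Δ ≠ 0)
    (h : ¬ W.ModRepIsIrreducible 3) : Cond3 (W.map (Int.castRingHom ℚ)) := by
  apply cond3_of_not_irreducible
  · rw [map_Δ]
    exact (map_ne_zero_iff _ (Int.cast_injective (α := ℚ))).mpr hΔ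
  · exact h

end Main3

end Fermat.Agent.S51
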