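/-
S51 package (IV-c) (helper3): rational points of the plane model
`C : (t+27)(t+3)³ s = (s²+10s+5)³ t` of `X₀(15)` via the elliptic curve
`E15 : y² = x(x-16)(x+9)`.

With `c = (η(3τ)η(15τ)/(η(τ)η(5τ)))²` and `b = η(3τ)⁵η(5τ)/(η(τ)⁵η(15τ))` one has on `X₀(15)`
`b² - (9c²+5c+1) b - c² = 0`, `t = 729 c b²`, and `X = b/c²`, `Y = 2cX(X-9) - 5X` satisfy
`Y² = 4X³ - 7X² - 36X`, i.e. `(x,y) = (4X,4Y)` lies on `E15`.  The modular units `b, c` are
explicit rational functions of `(t,s)` with denominator `9 (t+3)² (t²+18t-27)`.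
(Formulas found by q-expansion linear algebra; verified here by `linear_combination`.)
-/
import Mathlib

set_option autoImplicit false
set_option maxHeartbeats 1600000

namespace Fermat.Agent.S51

/-- Numerator of `9 D₀ · b`. -/
def nb9 (t s : ℚ) : ℚ :=
    -2187 - 15*t + 4929*t*s + 3951*t*s^2 + 948*t*s^3 + 90*t*s^4 + 3*t*s^5 - 35*t^2 + 766*t^2*s
    + 230*t^2*s^2 + 26*t^2*s^3 + t^2*s^4 - 19*t^3 + 16*t^3*s + t^3*s^2 - t^4

/-- Numerator of `9 D₀ · c`. -/
def nc9 (t s : ℚ) : ℚ :=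
    -3*t - 1866*t*s - 663*t*s^2 - 78*t*s^3 - 3*t*s^4 + 320*t^2 - 1499*t^2*s - 1308*t^2*s^2 -
    316*t^2*s^3 - 30*t^2*s^4 - t^2*s^5 + 275*t^3 + 16*t^3*s + t^3*s^2 + 34*t^4 + t^5

/-- Common denominator `9 (t+3)² (t²+18t-27)`. -/
def d9 (t : ℚ) : ℚ := 9 * (t ^ 4 + 24 * t ^ 3 + 90 * t ^ 2 - 243)

/-- The defining polynomial of the plane model `C`. -/
def polyC (t s : ℚ) : ℚ := (t + 27) * (t + 3) ^ 3 * s - (s ^ 2 + 10 * s + 5) ^ 3 * t

theorem unit_relation_poly (t s : ℚ) (hC : polyC t s = 0) :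
    nb9 t s ^ 2 * d9 t - (9 * nc9 t s ^ 2 + 5 * nc9 t s * d9 t + d9 t ^ 2) * nb9 t s -
      nc9 t s ^ 2 * d9 t = 0 := by
  unfold polyC at hC
  unfold nb9 nc9 d9
  linear_combination
    (      93553299*t + 47672226*t*s + 8778618*t*s^2 + 688905*t*s^3 + 19683*t*s^4 + 62582220*t^2 +
      141709338*t^2*s + 78258150*t^2*s^2 + 20854746*t^2*s^3 + 3137130*t^2*s^4 + 271917*t^2*s^5
      + 12636*t^2*s^6 + 243*t^2*s^7 - 43467840*t^3 + 142545177*t^3*s + 189216405*t^3*s^2 +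
      86417361*t^3*s^3 + 20274300*t^3*s^4 + 2728566*t^3*s^5 + 213597*t^3*s^6 + 9072*t^3*s^7 +
      162*t^3*s^8 - 61130619*t^4 + 42774183*t^4*s + 114959169*t^4*s^2 + 76654080*t^4*s^3 +
      25655913*t^4*s^4 + 4980933*t^4*s^5 + 586629*t^4*s^6 + 41445*t^4*s^7 + 1620*t^4*s^8 +
      27*t^4*s^9 - 25934211*t^5 - 7460739*t^5*s + 7413273*t^5*s^2 + 4607127*t^5*s^3 +
      1132560*t^5*s^4 + 152586*t^5*s^5 + 11889*t^5*s^6 + 504*t^5*s^7 + 9*t^5*s^8 - 4545945*t^6
      - 2122047*t^6*s - 273951*t^6*s^2 + 13599*t^6*s^3 + 5463*t^6*s^4 + 396*t^6*s^5 +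
      9*t^6*s^6 - 358479*t^7 - 120447*t^7*s - 17766*t^7*s^2 - 1161*t^7*s^3 - 27*t^7*s^4 -
      12222*t^8 - 2403*t^8*s - 234*t^8*s^2 - 9*t^8*s^3 - 144*t^9 - 9*t^9*s) * hC

theorem t_eq_poly (t s : ℚ) (hC : polyC t s = 0) :
    t * d9 t ^ 3 - 729 * nc9 t s * nb9 t s ^ 2 = 0 := by
  unfold polyC at hC
  unfold nb9 nc9 d9
  linear_combination
    (      8925020154*t + 3171108447*t*s + 373071582*t*s^2 + 14348907*t*s^3 + 7697706372*t^2 -
      14661827334*t^2*s - 22271196402*t^2*s^2 - 10417030920*t^2*s^3 - 2457835893*t^2*s^4 -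
      331225524*t^2*s^5 - 25942194*t^2*s^6 - 1102248*t^2*s^7 - 19683*t^2*s^8 + 1313485956*t^3
      - 21304964493*t^3*s - 31403045520*t^3*s^2 - 19204558758*t^3*s^3 - 6288692256*t^3*s^4 -
      1213122339*t^3*s^5 - 142609896*t^3*s^6 - 10071135*t^3*s^7 - 393660*t^3*s^8 -
      6561*t^3*s^9 + 477142164*t^4 - 5198192820*t^4*s - 5971516020*t^4*s^2 -
      2555299548*t^4*s^3 - 574188102*t^4*s^4 - 75193434*t^4*s^5 - 5799924*t^4*s^6 -
      244944*t^4*s^7 - 4374*t^4*s^8 + 195608196*t^5 - 383736852*t^5*s - 315610344*t^5*s^2 -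
      90942750*t^5*s^3 - 13094298*t^5*s^4 - 1025703*t^5*s^5 - 42282*t^5*s^6 - 729*t^5*s^7 +
      28968273*t^6 - 4601448*t^6*s - 4131972*t^6*s^2 - 761076*t^6*s^3 - 56133*t^6*s^4 -
      1458*t^6*s^5 + 1501740*t^7 + 172773*t^7*s + 14580*t^7*s^2 + 729*t^7*s^3 + 23328*t^8 +
      1458*t^8*s) * hC

/-! ### Irrationality facts -/

lemma rat_sq_ne_five (r : ℚ) : r ^ 2 ≠ 5 := by
  intro h
  have h5 : Irrational (√((5 : ℕ) : ℝ)) := Nat.Prime.irrational_sqrt (by norm_num)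
  apply h5
  refine ⟨|r|, ?_⟩
  have h' : ((r : ℝ)) ^ 2 = 5 := by exact_mod_cast h
  rw [Rat.cast_abs, ← Real.sqrt_sq_eq_abs, h']
  norm_num

lemma rat_sq_ne_three (r : ℚ) : r ^ 2 ≠ 3 := by
  intro h
  have h3 : Irrational (√((3 : ℕ) : ℝ)) := Nat.Prime.irrational_sqrt (by norm_num)
  apply h3
  refine ⟨|r|, ?_⟩
  have h' : ((r : ℝ)) ^ 2 = 3 := by exact_mod_cast h
  rw [Rat.cast_abs, ← Real.sqrt_sq_eq_abs, h']
  norm_num

lemma s_quad_ne_zero (s : ℚ) : s ^ 2 + 10 * s + 5 ≠ 0 := by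
  intro h
  apply rat_sq_ne_five ((s + 5) / 2)
  linear_combination h / 4

lemma t_quad_ne_zero (t : ℚ) : t ^ 2 + 18 * t - 27 ≠ 0 := by
  intro h
  apply rat_sq_ne_three ((t + 9) / 6)
  linear_combination h / 36

lemma d9_ne_zero (t s : ℚ) (hC : polyC t s = 0) : d9 t ≠ 0 := by
  have ht3 : t + 3 ≠ 0 := by
    intro h
    have ht : t = -3 := by linear_combination h
    unfold polyC at hC
    rw [ht] at hC
    have : (s ^ 2 + 10 * s + 5) ^ 3 = 0 := by linear_combination hC / 3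
    exact s_quad_ne_zero s (pow_eq_zero_iff (by norm_num) |>.1 this)
  have : d9 t = 9 * ((t + 3) ^ 2 * (t ^ 2 + 18 * t - 27)) := by unfold d9; ring
  rw [this]
  exact mul_ne_zero (by norm_num) (mul_ne_zero (pow_ne_zero 2 ht3) (t_quad_ne_zero t))

/-- **(IV-c)** Every rational point `(t, s)` with `t ≠ 0` on the plane model
`(t+27)(t+3)³ s = (s²+10s+5)³ t` of `X₀(15)` has `t ∈ {-2, -729/2, -32, -729/32}`,
given the determination of the rational points of `y² = x(x-16)(x+9)`. -/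
theorem t_mem_of_polyC
    (hE : ∀ x y : ℚ, y ^ 2 = x * (x - 16) * (x + 9) →
      (x, y) ∈ ({(0, 0), (16, 0), (-9, 0), (-4, 20), (-4, -20), (36, 180), (36, -180)} :
        Set (ℚ × ℚ)))
    (t s : ℚ) (ht : t ≠ 0) (hC : (t + 27) * (t + 3) ^ 3 * s = (s ^ 2 + 10 * s + 5) ^ 3 * t) :
    t = -2 ∨ t = -729 / 2 ∨ t = -32 ∨ t = -729 / 32 := by
  have hC' : polyC t s = 0 := by unfold polyC; linear_combination hC
  have hd := d9_ne_zero t s hC'
  set b : ℚ := nb9 t s / d9 t with hb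
  set c : ℚ := nc9 t s / d9 t with hc
  have hnb : nb9 t s = b * d9 t := by rw [hb]; field_simp
  have hnc : nc9 t s = c * d9 t := by rw [hc]; field_simp
  have hd3 : d9 t ^ 3 ≠ 0 := pow_ne_zero 3 hd
  -- the two relations between the modular units
  have h1 : b ^ 2 - (9 * c ^ 2 + 5 * c + 1) * b - c ^ 2 = 0 := by
    have := unit_relation_poly t s hC'
    rw [hnb, hnc] at this
    have h2 : d9 t ^ 3 * (b ^ 2 - (9 * c ^ 2 + 5 * c + 1) * b - c ^ 2) = 0 := by
      linear_combination this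
    exact (mul_eq_zero.1 h2).resolve_left hd3
  have h2 : t = 729 * c * b ^ 2 := by
    have := t_eq_poly t s hC'
    rw [hnb, hnc] at this
    have h3 : d9 t ^ 3 * (t - 729 * c * b ^ 2) = 0 := by linear_combination this
    have := (mul_eq_zero.1 h3).resolve_left hd3
    linear_combination this
  have hc0 : c ≠ 0 := by
    intro h
    apply ht
    rw [h2, h]; ring
  have hc2 : c ^ 2 ≠ 0 := pow_ne_zero 2 hc0
  -- Weierstrass coordinates
  set X : ℚ := b / c ^ 2 with hX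
  set Y : ℚ := 2 * c * X * (X - 9) - 5 * X with hY
  have hbX : b = X * c ^ 2 := by rw [hX]; field_simp
  have hG : c ^ 2 * X * (X - 9) - 5 * c * X - (X + 1) = 0 := by
    have h3 : c ^ 2 * (c ^ 2 * X * (X - 9) - 5 * c * X - (X + 1)) = 0 := by
      rw [hbX] at h1
      linear_combination h1
    exact (mul_eq_zero.1 h3).resolve_left hc2
  have hW : (4 * Y) ^ 2 = (4 * X) * (4 * X - 16) * (4 * X + 9) := by
    rw [hY]
    linear_combination (64 * X * (X - 9)) * hG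
  have hmem := hE (4 * X) (4 * Y) hW
  simp only [Set.mem_insert_iff, Set.mem_singleton_iff, Prod.mk.injEq] at hmem
  have ht' : t = 729 * c * (X * c ^ 2) ^ 2 := by rw [← hbX]; exact h2
  rcases hmem with ⟨hx, hy⟩ | ⟨hx, hy⟩ | ⟨hx, hy⟩ | ⟨hx, hy⟩ | ⟨hx, hy⟩ | ⟨hx, hy⟩ | ⟨hx, hy⟩
  · -- (0,0): X = 0, so t = 0
    exfalso
    have hX0 : X = 0 := by linarith
    apply ht
    rw [ht', hX0]; ring
  · -- (16,0): X = 4, Y = 0, c = -1/2
    have hX4 : X = 4 := by linarith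
    have hY0 : Y = 0 := by linarith
    have hcv : c = -1 / 2 := by
      rw [hX4] at hY
      linarith
    right; left
    rw [ht', hX4, hcv]; norm_num
  · -- (-9,0): X = -9/4, Y = 0, c = -2/9
    have hXv : X = -9 / 4 := by linarith
    have hY0 : Y = 0 := by linarith
    have hcv : c = -2 / 9 := by
      rw [hXv] at hY
      linarith
    left
    rw [ht', hXv, hcv]; norm_num
  · -- (-4,20): X = -1, Y = 5 forces c = 0
    exfalso
    have hXv : X = -1 := by linarith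
    have hYv : Y = 5 := by linarith
    apply hc0
    rw [hXv] at hY
    linarith
  · -- (-4,-20): X = -1, Y = -5, c = -1/2
    have hXv : X = -1 := by linarith
    have hYv : Y = -5 := by linarith
    have hcv : c = -1 / 2 := by
      rw [hXv] at hY
      linarith
    right; right; right
    rw [ht', hXv, hcv]; norm_num
  · -- (36,180): X = 9 forces Y = -45
    exfalso
    have hXv : X = 9 := by linarith
    have hYv : Y = 45 := by linarith
    rw [hXv] at hY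
    linarith
  · -- (36,-180): X = 9, c = -2/9
    have hXv : X = 9 := by linarith
    have hcv : c = -2 / 9 := by
      rw [hXv] at hG
      linarith
    right; right; left
    rw [ht', hXv, hcv]; norm_num

/-- The `j`-invariant version: `j = (t+27)(t+3)³/t` takes one of the four values. -/
theorem j_mem_of_polyC
    (hE : ∀ x y : ℚ, y ^ 2 = x * (x - 16) * (x + 9) →
      (x, y) ∈ ({(0, 0), (16, 0), (-9, 0), (-4, 20), (-4, -20), (36, 180), (36, -180)} :
        Set (ℚ × ℚ)))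
    (j t s : ℚ) (ht : t ≠ 0) (hjt : j * t = (t + 27) * (t + 3) ^ 3)
    (hjs : j * s = (s ^ 2 + 10 * s + 5) ^ 3) :
    j ∈ ({-25 / 2, -349938025 / 8, -121945 / 32, 46969655 / 32768} : Set ℚ) := by
  have hC : (t + 27) * (t + 3) ^ 3 * s = (s ^ 2 + 10 * s + 5) ^ 3 * t := by
    rw [← hjt, ← hjs]; ring
  have hj : j = (t + 27) * (t + 3) ^ 3 / t := by
    field_simp
    linear_combination hjt
  simp only [Set.mem_insert_iff, Set.mem_singleton_iff]
  rcases t_mem_of_polyC hE t s ht hC with h | h | h | h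
  · left; rw [hj, h]; norm_num
  · right; left; rw [hj, h]; norm_num
  · right; right; left; rw [hj, h]; norm_num
  · right; right; right; rw [hj, h]; norm_num

end Fermat.Agent.S51
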