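/-
S51 package (V) (helper3): the four non-cuspidal rational points of X₀(15) do not come from
semistable curves: their j-invariants have 5-adic valuation 1 or 2.
-/
import Mathlib
import Fermat.Prelude.Def_FLTPrelim_Modularity

set_option autoImplicit false

namespace Fermat.Agent.S51

open WeierstrassCurve

/-- For a semistable integral model, `c₄³ · d = n · Δ` is impossible when `5 ∣ n`, `125 ∤ n`,
`5 ∤ d`. -/
theorem c4_cube_mul_ne_of_five (W : WeierstrassCurve ℤ) (hW : W.IsSemistableModel)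
    (n d : ℤ) (hd : ¬ (5 : ℤ) ∣ d) (hn5 : (5 : ℤ) ∣ n) (hn125 : ¬ (125 : ℤ) ∣ n) :
    W.c₄ ^ 3 * d ≠ n * W.Δ := by
  intro h
  have h5 : Prime (5 : ℤ) := by norm_num
  have hc4 : (5 : ℤ) ∣ W.c₄ := by
    have h1 : (5 : ℤ) ∣ W.c₄ ^ 3 * d := by rw [h]; exact Dvd.dvd.mul_right hn5 _
    rcases h5.dvd_or_dvd h1 with h2 | h2
    · exact h5.dvd_of_dvd_pow h2
    · exact absurd h2 hd
  have hΔ5 : ¬ (5 : ℤ) ∣ W.Δ := fun hΔ => hW 5 (by norm_num) (by exact_mod_cast hΔ)
    (by exact_mod_cast hc4)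
  have h125 : (125 : ℤ) ∣ n * W.Δ := by
    rw [← h]
    obtain ⟨c, hc⟩ := hc4
    exact ⟨c ^ 3 * d, by rw [hc]; ring⟩
  -- 125 ∣ n * Δ with 5 ∤ Δ forces 125 ∣ n
  have hcop : IsCoprime (125 : ℤ) W.Δ := by
    have : IsCoprime (5 : ℤ) W.Δ := (h5.coprime_iff_not_dvd).2 hΔ5
    have h3 : IsCoprime ((5 : ℤ) ^ 3) W.Δ := this.pow_left
    norm_num at h3
    exact h3
  exact hn125 (hcop.dvd_of_dvd_mul_right h125)

/-- The rational `j`-invariant `c₄³ / Δ` of a semistable integral model is none of the four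
`j`-invariants of the non-cuspidal rational points of `X₀(15)`. -/
theorem j_ne_of_semistable (W : WeierstrassCurve ℤ) (hΔ : W.Δ ≠ 0) (hW : W.IsSemistableModel) :
    ((W.c₄ : ℚ) ^ 3 / (W.Δ : ℚ)) ∉
      ({-25 / 2, -349938025 / 8, -121945 / 32, 46969655 / 32768} : Set ℚ) := by
  have hΔq : (W.Δ : ℚ) ≠ 0 := by exact_mod_cast hΔ
  have key : ∀ n d : ℤ, d ≠ 0 → ¬ (5 : ℤ) ∣ d → (5 : ℤ) ∣ n → ¬ (125 : ℤ) ∣ n →
      (W.c₄ : ℚ) ^ 3 / (W.Δ : ℚ) ≠ (n : ℚ) / (d : ℚ) := by
    intro n d hd0 hd hn5 hn125 h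
    have hdq : (d : ℚ) ≠ 0 := by exact_mod_cast hd0
    rw [div_eq_div_iff hΔq hdq] at h
    exact c4_cube_mul_ne_of_five W hW n d hd hn5 hn125 (by exact_mod_cast h)
  intro hmem
  simp only [Set.mem_insert_iff, Set.mem_singleton_iff] at hmem
  rcases hmem with h | h | h | h
  · exact key (-25) 2 (by norm_num) (by norm_num) (by norm_num) (by norm_num)
      (by rw [h]; norm_num)
  · exact key (-349938025) 8 (by norm_num) (by norm_num) (by norm_num) (by norm_num)
      (by rw [h]; norm_num)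
  · exact key (-121945) 32 (by norm_num) (by norm_num) (by norm_num) (by norm_num)
      (by rw [h]; norm_num)
  · exact key 46969655 32768 (by norm_num) (by norm_num) (by norm_num) (by norm_num)
      (by rw [h]; norm_num)

end Fermat.Agent.S51
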